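/-
GATE-E / E9-IHARA2 (helper46), file 7: `res_δ` commutes with `T_ℓ` (`ℓ ∤ M q`) at EVERY level `M`
(in particular for `q ∣ M`, where the Atkin--Lehner argument of `GM/B5/WT.resD_cohT` is not
available), via `α_{q x} δ = T^m δ α_x` and the distinctness of the Hecke cosets.
Lattice forms `resP_latT_gen`, `resDP_latT_gen`.
-/
import Mathlib
import Fermat.Agent.GM.B5.EquivLat

set_option autoImplicit false

open scoped MatrixGroups
open CongruenceSubgroup Matrix Matrix.SpecialLinearGroup ModularCurve.Period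
open Fermat.Agent.S16_helper49
open Fermat.Agent.GM.Amalgam
open Fermat.Agent.GM.B
open Fermat.Agent.GM.B5
open Fermat.Agent.GJ.J2.Lat
open P2MW.S_ModularForm_heckeT_slash_eq_self_of_mem_Gamma0.ModularForm.HeckeSlashInvariance
open P2MW.S_ModularForm_heckeT_slash_eq_self_of_mem_Gamma0.ModularForm
open scoped OnePoint

namespace Fermat.Agent.GE9.Ihara2

variable {M q ℓ : ℕ} [hq : Fact q.Prime] [hℓ : Fact ℓ.Prime]

/-- **`res_δ` commutes with `T_ℓ`** (`ℓ ∤ M q`), at every level `M`. -/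
theorem resD_cohT_gen (h : ¬ ℓ ∣ M * q) {A : Type*} [AddCommGroup A]
    (φ : Additive (Gamma0 M) →+ A) :
    resD A M q (cohT (not_dvd_of_not_dvd_mul h) A φ) = cohT h A (resD A M q φ) := by
  have hqℓ : (q : ZMod ℓ) ≠ 0 := natCast_ne_zero_of_not_dvd_mul h
  have hℓM : ¬ ℓ ∣ M := not_dvd_of_not_dvd_mul h
  rw [← heckeSys_op, ← heckeSys_op]
  show (resDSys M q).op A ((heckeSys hℓM).op A φ) = (heckeSys h).op A ((resDSys M q).op A φ)
  rw [← CosetSys.op_comp, ← CosetSys.op_comp]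
  choose m hm using heckeRep_mulQ_mul_dlt (q := q) (ℓ := ℓ) hqℓ
  refine CosetSys.op_eq_of_cosets ((resDSys M q).comp (heckeSys h))
    ((heckeSys hℓM).comp (resDSys M q)) embR_injective
    (distinct_comp_single (heckeSys hℓM) (heckeSys_distinct hℓM) _ _ _)
    ((Equiv.punitProd (OnePoint (ZMod ℓ))).trans
      ((mulQ hqℓ).trans (Equiv.prodPUnit (OnePoint (ZMod ℓ))).symm))
    1 (fun x => by rw [one_mul, mul_one]) (fun p => ⟨trZ (m p.2), trZ_mem M _⟩) ?_ φ
  rintro ⟨u, x⟩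
  show heckeRep ℓ (mulQ hqℓ x) * dlt q = 1 * embR (trZ (m x)) * (dlt q * heckeRep ℓ x)
  rw [one_mul]
  exact hm x

section Lattice

variable [NeZero M] [NeZero (M * q)]

/-- `res` commutes with `T_l` on the lattices, `l ∤ M q`, every level `M`. -/
theorem resP_latT_gen (l : Nat.Primes) (hl : ¬ (l : ℕ) ∣ M * q) (z : Lam M) :
    resP ℤ M q (latT M l z) = latT (M * q) l (resP ℤ M q z) := by
  have : Fact (l : ℕ).Prime := ⟨l.2⟩
  have hlM : ¬ (l : ℕ) ∣ M := not_dvd_of_not_dvd_mul hl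
  apply Subtype.ext
  show res ℤ M q (cohGen M ℤ l z.1) = cohGen (M * q) ℤ l (res ℤ M q z.1)
  rw [cohGen_of_not_dvd M ℤ l hlM, cohGen_of_not_dvd (M * q) ℤ l hl, res_cohT hl]

/-- `res_δ` commutes with `T_l` on the lattices, `l ∤ M q`, every level `M`. -/
theorem resDP_latT_gen (l : Nat.Primes) (hl : ¬ (l : ℕ) ∣ M * q) (z : Lam M) :
    resDP ℤ M q (latT M l z) = latT (M * q) l (resDP ℤ M q z) := by
  have : Fact (l : ℕ).Prime := ⟨l.2⟩
  have hlM : ¬ (l : ℕ) ∣ M := not_dvd_of_not_dvd_mul hl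
  apply Subtype.ext
  show resD ℤ M q (cohGen M ℤ l z.1) = cohGen (M * q) ℤ l (resD ℤ M q z.1)
  rw [cohGen_of_not_dvd M ℤ l hlM, cohGen_of_not_dvd (M * q) ℤ l hl, resD_cohT_gen hl]

end Lattice

end Fermat.Agent.GE9.Ihara2
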