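/-
GATE-E / E9-IHARA2 (helper46), file 2: the two embeddings `degenOne, degenDelta : Γ₀(N q) → Γ₀(N)`
satisfy the hypotheses of `Glue.exists_glue_hecke` with `K = Γ₀(N) ∩ Γ(q)`:
ranges (`q ∣ c`, resp. `q ∣ b`), injectivity, `K ≤` both ranges, GENERATION
`range degenOne ⊔ range degenDelta = ⊤`, and the agreement of `(-v, u)` on the intersection of the
ranges from the level-`N q²` relation `u ∘ degenOne + v ∘ degenDelta = 0`.
-/
import Mathlib
import Fermat.Agent.GE9.Ihara2.Glue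
import Fermat.Agent.GM.B5.WT
import Fermat.Agent.GM.Amalgam.Elementary

set_option autoImplicit false

open scoped MatrixGroups
open CongruenceSubgroup Matrix Matrix.SpecialLinearGroup
open Fermat.Agent.S16_helper49
open Fermat.Agent.GM.Amalgam
open Fermat.Agent.GM.B
open Fermat.Agent.GM.B5

namespace Fermat.Agent.GE9.Ihara2

variable {N q : ℕ} [hq : Fact q.Prime]

/-! ### extensionality and the entries of the two embeddings -/

theorem sl2_ext {g h : SL(2, ℤ)} (h00 : g 0 0 = h 0 0) (h01 : g 0 1 = h 0 1)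
    (h10 : g 1 0 = h 1 0) (h11 : g 1 1 = h 1 1) : g = h := by
  ext i j
  fin_cases i <;> fin_cases j
  · exact h00
  · exact h01
  · exact h10
  · exact h11

omit hq in
theorem degenOne_injective : Function.Injective (degenOne N q) := by
  intro g h hgh
  apply Subtype.ext
  rw [← degenOne_coe g, ← degenOne_coe h, hgh]

theorem qZ_ne_zero : (q : ℤ) ≠ 0 := by exact_mod_cast hq.out.ne_zero

theorem degenDelta_injective : Function.Injective (degenDelta N q) := by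
  intro g h hgh
  obtain ⟨g00, g01, g10, g11⟩ := degenDelta_entries g
  obtain ⟨h00, h01, h10, h11⟩ := degenDelta_entries h
  rw [hgh] at g00 g01 g10 g11
  apply Subtype.ext
  refine sl2_ext (g00.symm.trans h00) ?_ (g10.symm.trans h10) (g11.symm.trans h11)
  exact mul_left_cancel₀ (qZ_ne_zero (q := q)) (g01.symm.trans h01)

theorem mem_range_degenOne (hqN : ¬ q ∣ N) (g : Gamma0 N) :
    g ∈ (degenOne N q).range ↔ (q : ℤ) ∣ (g : SL(2, ℤ)) 1 0 := by
  constructor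
  · rintro ⟨e, rfl⟩
    rw [degenOne_coe]
    refine Dvd.dvd.trans ?_ (dvd_of_mem_Gamma0 e)
    push_cast
    exact dvd_mul_left _ _
  · intro h
    have hN : (N : ℤ) ∣ (g : SL(2, ℤ)) 1 0 := dvd_of_mem_Gamma0 g
    have hcop : IsCoprime (N : ℤ) (q : ℤ) := by
      have : Nat.Coprime N q := by
        rw [Nat.coprime_comm]
        exact (Nat.Prime.coprime_iff_not_dvd hq.out).mpr hqN
      exact Nat.isCoprime_iff_coprime.mpr this
    have hmem : (g : SL(2, ℤ)) ∈ Gamma0 (N * q) := by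
      apply mem_Gamma0_of_dvd
      push_cast
      exact hcop.mul_dvd hN h
    refine ⟨⟨(g : SL(2, ℤ)), hmem⟩, ?_⟩
    apply Subtype.ext
    rw [degenOne_coe]

theorem mem_range_degenDelta (g : Gamma0 N) :
    g ∈ (degenDelta N q).range ↔ (q : ℤ) ∣ (g : SL(2, ℤ)) 0 1 := by
  constructor
  · rintro ⟨e, rfl⟩
    rw [(degenDelta_entries e).2.1]
    exact dvd_mul_right _ _
  · rintro ⟨b', hb'⟩
    have hdet := det_eq_one (g : SL(2, ℤ))
    obtain ⟨c', hc'⟩ : (N : ℤ) ∣ (g : SL(2, ℤ)) 1 0 := dvd_of_mem_Gamma0 g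
    let e : SL(2, ℤ) := mkZ ((g : SL(2, ℤ)) 0 0) b' ((q : ℤ) * (g : SL(2, ℤ)) 1 0)
      ((g : SL(2, ℤ)) 1 1) (by rw [hb'] at hdet; linear_combination hdet)
    have he : e ∈ Gamma0 (N * q) := by
      apply mem_Gamma0_of_dvd
      show ((N * q : ℕ) : ℤ) ∣ (q : ℤ) * (g : SL(2, ℤ)) 1 0
      rw [hc']
      push_cast
      exact ⟨c', by ring⟩
    refine ⟨⟨e, he⟩, ?_⟩
    obtain ⟨e00, e01, e10, e11⟩ := degenDelta_entries (N := N) (q := q) ⟨e, he⟩
    apply Subtype.ext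
    refine sl2_ext e00 ?_ ?_ e11
    · rw [e01, hb']
      rfl
    · exact mul_left_cancel₀ (qZ_ne_zero (q := q)) e10

/-! ### the normal subgroup `K = Γ₀(N) ∩ Γ(q)` -/

/-- `K = Γ₀(N) ∩ Γ(q)` as a subgroup of `Γ₀(N)`. -/
def KSub (N q : ℕ) : Subgroup (Gamma0 N) := (Gamma q).subgroupOf (Gamma0 N)

instance KSub_normal : (KSub N q).Normal := (Gamma_normal q).subgroupOf (Gamma0 N)

omit hq in
theorem mem_KSub_iff (g : Gamma0 N) :
    g ∈ KSub N q ↔ SpecialLinearGroup.map (Int.castRingHom (ZMod q)) (g : SL(2, ℤ)) = 1 := by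
  rw [KSub, Subgroup.mem_subgroupOf, Gamma_mem']

theorem KSub_le_range_degenOne (hqN : ¬ q ∣ N) : KSub N q ≤ (degenOne N q).range := by
  intro g hg
  rw [KSub, Subgroup.mem_subgroupOf, Gamma_mem] at hg
  rw [mem_range_degenOne hqN]
  exact (ZMod.intCast_zmod_eq_zero_iff_dvd _ _).mp hg.2.2.1

theorem KSub_le_range_degenDelta : KSub N q ≤ (degenDelta N q).range := by
  intro g hg
  rw [KSub, Subgroup.mem_subgroupOf, Gamma_mem] at hg
  rw [mem_range_degenDelta]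
  exact (ZMod.intCast_zmod_eq_zero_iff_dvd _ _).mp hg.2.1

/-! ### generation -/

theorem trZ_mem_range_degenOne (hqN : ¬ q ∣ N) (k : ℤ) :
    (⟨trZ k, trZ_mem N k⟩ : Gamma0 N) ∈ (degenOne N q).range := by
  rw [mem_range_degenOne hqN]
  show (q : ℤ) ∣ (trZ k) 1 0
  simp [trZ]

theorem lZ_mem_range_degenDelta (m : ℤ) :
    (⟨lZ ((N : ℤ) * m), lZ_mem_Gamma0 m⟩ : Gamma0 N) ∈ (degenDelta N q).range := by
  rw [mem_range_degenDelta]
  show (q : ℤ) ∣ (lZ ((N : ℤ) * m)) 0 1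
  simp [lZ]

theorem mul_entries_Z (x y : SL(2, ℤ)) :
    (x * y) 0 0 = x 0 0 * y 0 0 + x 0 1 * y 1 0 ∧ (x * y) 0 1 = x 0 0 * y 0 1 + x 0 1 * y 1 1 ∧
      (x * y) 1 0 = x 1 0 * y 0 0 + x 1 1 * y 1 0 ∧ (x * y) 1 1 = x 1 0 * y 0 1 + x 1 1 * y 1 1 := by
  have h := Matrix.two_mul_expl (x : Matrix (Fin 2) (Fin 2) ℤ) (y : Matrix (Fin 2) (Fin 2) ℤ)
  have e : ((x * y : SL(2, ℤ)) : Matrix (Fin 2) (Fin 2) ℤ) = (x : Matrix (Fin 2) (Fin 2) ℤ) * y :=
    Matrix.SpecialLinearGroup.coe_mul x y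
  refine ⟨?_, ?_, ?_, ?_⟩
  · exact (congrFun (congrFun e 0) 0).trans h.1
  · exact (congrFun (congrFun e 0) 1).trans h.2.1
  · exact (congrFun (congrFun e 1) 0).trans h.2.2.1
  · exact (congrFun (congrFun e 1) 1).trans h.2.2.2

/-- if `q ∤ a` then `g T^k` has `q ∣ b` for a suitable `k`. -/
theorem mem_sup_of_not_dvd (hqN : ¬ q ∣ N) (g : Gamma0 N)
    (ha : ¬ (q : ℤ) ∣ (g : SL(2, ℤ)) 0 0) :
    g ∈ (degenOne N q).range ⊔ (degenDelta N q).range := by
  have hqp : Prime (q : ℤ) := Nat.prime_iff_prime_int.mp hq.out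
  have hcop : IsCoprime ((g : SL(2, ℤ)) 0 0) (q : ℤ) :=
    ((Prime.coprime_iff_not_dvd hqp).mpr ha).symm
  obtain ⟨u, v, huv⟩ := hcop
  -- `k := -u b` : `a k + b = b (1 - u a) = b v q`
  set k : ℤ := -(u * (g : SL(2, ℤ)) 0 1) with hk
  let t : Gamma0 N := ⟨trZ k, trZ_mem N k⟩
  have h1 : g * t ∈ (degenDelta N q).range := by
    rw [mem_range_degenDelta]
    have e := (mul_entries_Z (g : SL(2, ℤ)) (trZ k)).2.1
    have e' : ((g * t : Gamma0 N) : SL(2, ℤ)) 0 1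
        = (g : SL(2, ℤ)) 0 0 * k + (g : SL(2, ℤ)) 0 1 := by
      show ((g : SL(2, ℤ)) * trZ k) 0 1 = _
      rw [e]
      simp [trZ]
    rw [e']
    exact ⟨v * (g : SL(2, ℤ)) 0 1, by rw [hk]; linear_combination (-((g : SL(2, ℤ)) 0 1)) * huv⟩
  have h2 : t ∈ (degenOne N q).range := trZ_mem_range_degenOne hqN k
  have h3 : g = (g * t) * t⁻¹ := by group
  rw [h3]
  exact Subgroup.mul_mem _ (Subgroup.mem_sup_right h1)
    (Subgroup.inv_mem _ (Subgroup.mem_sup_left h2))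

/-- **generation**: `Γ₀(N) = ⟨Γ₀(N q), Γ₀(N) ∩ Γ⁰(q)⟩`. -/
theorem range_sup_range (hqN : ¬ q ∣ N) :
    (degenOne N q).range ⊔ (degenDelta N q).range = ⊤ := by
  rw [eq_top_iff]
  intro g _
  by_cases ha : (q : ℤ) ∣ (g : SL(2, ℤ)) 0 0
  · -- then `q ∤ b`, and `g L` has `q ∤ a`
    have hqp : Prime (q : ℤ) := Nat.prime_iff_prime_int.mp hq.out
    have hdet := det_eq_one (g : SL(2, ℤ))
    have hb : ¬ (q : ℤ) ∣ (g : SL(2, ℤ)) 0 1 := by
      intro hb
      have : (q : ℤ) ∣ 1 := by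
        rw [← hdet]
        exact dvd_sub (Dvd.dvd.mul_right ha _) (Dvd.dvd.mul_right hb _)
      exact hqp.not_dvd_one this
    let L : Gamma0 N := ⟨lZ ((N : ℤ) * 1), lZ_mem_Gamma0 1⟩
    have hL : L ∈ (degenDelta N q).range := lZ_mem_range_degenDelta 1
    have e := (mul_entries_Z (g : SL(2, ℤ)) (lZ ((N : ℤ) * 1))).1
    have e' : ((g * L : Gamma0 N) : SL(2, ℤ)) 0 0
        = (g : SL(2, ℤ)) 0 0 + (g : SL(2, ℤ)) 0 1 * N := by
      show ((g : SL(2, ℤ)) * lZ ((N : ℤ) * 1)) 0 0 = _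
      rw [e]
      simp [lZ]
    have ha' : ¬ (q : ℤ) ∣ ((g * L : Gamma0 N) : SL(2, ℤ)) 0 0 := by
      rw [e']
      intro h
      have h2 : (q : ℤ) ∣ (g : SL(2, ℤ)) 0 1 * N := (dvd_add_right ha).mp h
      rcases hqp.dvd_or_dvd h2 with h3 | h3
      · exact hb h3
      · exact hqN (by exact_mod_cast h3)
    have h3 : g = (g * L) * L⁻¹ := by group
    rw [h3]
    exact Subgroup.mul_mem _ (mem_sup_of_not_dvd hqN _ ha')
      (Subgroup.inv_mem _ (Subgroup.mem_sup_right hL))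
  · exact mem_sup_of_not_dvd hqN g ha

/-! ### agreement on the intersection of the ranges -/

/-- the element of `Γ₀(N q²)` lying over a point of `range degenOne ∩ range degenDelta`. -/
theorem exists_level_sq (e₁ e₂ : Gamma0 (N * q)) (h : degenOne N q e₁ = degenDelta N q e₂) :
    ∃ g : Gamma0 (N * q * q), degenOne (N * q) q g = e₂ ∧ degenDelta (N * q) q g = e₁ := by
  have hmat : (e₁ : SL(2, ℤ)) = ((degenDelta N q e₂ : Gamma0 N) : SL(2, ℤ)) := by
    rw [← h, degenOne_coe]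
  obtain ⟨d00, d01, d10, d11⟩ := degenDelta_entries e₂
  rw [← hmat] at d00 d01 d10 d11
  have hmem : (e₂ : SL(2, ℤ)) ∈ Gamma0 (N * q * q) := by
    apply mem_Gamma0_of_dvd
    rw [← d10]
    obtain ⟨c', hc'⟩ := dvd_of_mem_Gamma0 e₁
    rw [hc']
    push_cast
    exact ⟨c', by ring⟩
  refine ⟨⟨(e₂ : SL(2, ℤ)), hmem⟩, ?_, ?_⟩
  · apply Subtype.ext
    rw [degenOne_coe]
  · obtain ⟨g00, g01, g10, g11⟩ := degenDelta_entries (N := N * q) (q := q) ⟨(e₂ : SL(2, ℤ)), hmem⟩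
    apply Subtype.ext
    refine sl2_ext (g00.trans d00.symm) (g01.trans d01.symm) ?_ (g11.trans d11.symm)
    exact mul_left_cancel₀ (qZ_ne_zero (q := q)) (g10.trans d10.symm)

theorem agree_of_rel {A : Type*} [AddCommGroup A] (u v : Additive (Gamma0 (N * q)) →+ A)
    (hrel : ∀ g : Gamma0 (N * q * q),
      u (Additive.ofMul (degenOne (N * q) q g)) + v (Additive.ofMul (degenDelta (N * q) q g)) = 0)
    (e₁ e₂ : Gamma0 (N * q)) (h : degenOne N q e₁ = degenDelta N q e₂) :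
    (-v) (Additive.ofMul e₁) = u (Additive.ofMul e₂) := by
  obtain ⟨g, hg1, hg2⟩ := exists_level_sq e₁ e₂ h
  have := hrel g
  rw [hg1, hg2] at this
  rw [AddMonoidHom.neg_apply]
  exact (eq_neg_of_add_eq_zero_left this).symm

end Fermat.Agent.GE9.Ihara2
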