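/-
GATE-E / E9-IHARA2 (helper46), file 3: the Hecke cocycle of `T_ℓ` at level `N`, twisted so that it
is trivial modulo `Γ(q)` when `ℓ ≡ 1 (mod q)`:

  `cTw γ x = t_x⁻¹ * cT γ x * t_{x·γ}`,   `t_x = (1, b_x; 0, 1)`, `b_x` the upper right entry of `α_x`.

`α_x ≡ t_x (mod q)` when `ℓ ≡ 1 (q)`, so `α_x γ = cT γ x α_{x·γ}` gives `γ⁻¹ * cTw γ x ∈ Γ(q)`.
-/
import Mathlib
import Fermat.Agent.GE9.Ihara2.Level
import Fermat.Agent.GM.EisClass.CohTEis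
import Fermat.Agent.GM.B.Distinct

set_option autoImplicit false

open scoped MatrixGroups
open CongruenceSubgroup Matrix Matrix.SpecialLinearGroup
open P2MW.S_ModularForm_heckeT_slash_eq_self_of_mem_Gamma0.ModularForm.HeckeSlashInvariance
open P2MW.S_ModularForm_heckeT_slash_eq_self_of_mem_Gamma0.ModularForm
open Fermat.Agent.S16_helper49
open Fermat.Agent.GM.Amalgam
open Fermat.Agent.GM.B
open Fermat.Agent.GM.B5
open Fermat.Agent.GM.EisClass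
open ModularForm
open scoped OnePoint

namespace Fermat.Agent.GE9.Ihara2

variable {N q ℓ : ℕ} [hq : Fact q.Prime] [hℓ : Fact ℓ.Prime]

/-! ### translations -/

theorem trZ_add (a b : ℤ) : trZ (a + b) = trZ a * trZ b := by
  refine sl2_ext ?_ ?_ ?_ ?_
  · rw [(mul_entries_Z _ _).1]; simp [trZ]
  · rw [(mul_entries_Z _ _).2.1]; simp [trZ]; ring
  · rw [(mul_entries_Z _ _).2.2.1]; simp [trZ]
  · rw [(mul_entries_Z _ _).2.2.2]; simp [trZ]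

theorem trZ_zero : trZ 0 = 1 := by
  refine sl2_ext ?_ ?_ ?_ ?_ <;> simp [trZ]

theorem trZ_neg (a : ℤ) : trZ (-a) = (trZ a)⁻¹ := by
  rw [eq_inv_iff_mul_eq_one, ← trZ_add, neg_add_cancel, trZ_zero]

/-- `t_x = (1, b_x; 0, 1)` as an element of `Γ₀(M)`. -/
def tRep (M ℓ : ℕ) (x : OnePoint (ZMod ℓ)) : Gamma0 M := ⟨trZ (bRep ℓ x), trZ_mem M _⟩

/-- the upper left entry of the Hecke representative `α_x`. -/
def aRep (ℓ : ℕ) (x : OnePoint (ZMod ℓ)) : ℤ := x.elim (ℓ : ℤ) (fun _ => 1)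

/-- the integral matrix of the Hecke representative `α_x`. -/
def AZ (ℓ : ℕ) (x : OnePoint (ZMod ℓ)) : Matrix (Fin 2) (Fin 2) ℤ :=
  !![aRep ℓ x, bRep ℓ x; 0, dRep ℓ x]

theorem heckeRep_eq_map (x : OnePoint (ZMod ℓ)) :
    ((heckeRep ℓ x : GL (Fin 2) ℝ) : Matrix (Fin 2) (Fin 2) ℝ)
      = (AZ ℓ x).map (algebraMap ℤ ℝ) := by
  have hℓ0 : ℓ ≠ 0 := hℓ.out.ne_zero
  induction x using OnePoint.rec with
  | infty =>
    rw [heckeRep_infty, val_heckeDiagMatrix hℓ0]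
    ext i j
    fin_cases i <;> fin_cases j <;> simp [AZ, aRep, bRep, dRep]
  | coe k =>
    rw [heckeRep_coe, val_heckeMatrix hℓ0]
    ext i j
    fin_cases i <;> fin_cases j <;> simp [AZ, aRep, bRep, dRep]

/-- **the Hecke relation over `ℤ`**: `A_x γ = cT γ x A_{x·γ}`. -/
theorem cT_rel_int (hℓN : ¬ ℓ ∣ N) (γ : Gamma0 N) (x : OnePoint (ZMod ℓ)) :
    AZ ℓ x * ((γ : SL(2, ℤ)) : Matrix (Fin 2) (Fin 2) ℤ)
      = ((cT hℓN γ x : SL(2, ℤ)) : Matrix (Fin 2) (Fin 2) ℤ)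
        * AZ ℓ (redMatrix ℓ (γ : SL(2, ℤ)) • x) := by
  have h := congrArg (fun M : GL (Fin 2) ℝ => (M : Matrix (Fin 2) (Fin 2) ℝ)) (cT_rel hℓN γ x)
  simp only [Matrix.GeneralLinearGroup.coe_mul, mapGL_coe_matrix, heckeRep_eq_map] at h
  have hinj : Function.Injective (algebraMap ℤ ℝ) := by
    intro a b hab
    simpa using hab
  apply Matrix.map_injective hinj
  show (AZ ℓ x * ((γ : SL(2, ℤ)) : Matrix (Fin 2) (Fin 2) ℤ)).map (algebraMap ℤ ℝ)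
    = (((cT hℓN γ x : SL(2, ℤ)) : Matrix (Fin 2) (Fin 2) ℤ)
        * AZ ℓ (redMatrix ℓ (γ : SL(2, ℤ)) • x)).map (algebraMap ℤ ℝ)
  rw [Matrix.map_mul, Matrix.map_mul]
  exact h

/-- modulo `q`, `A_x ≡ t_x` when `ℓ ≡ 1 (mod q)`. -/
theorem AZ_map_zmod (hℓq : (ℓ : ZMod q) = 1) (x : OnePoint (ZMod ℓ)) :
    (AZ ℓ x).map (Int.castRingHom (ZMod q))
      = ((trZ (bRep ℓ x) : SL(2, ℤ)) : Matrix (Fin 2) (Fin 2) ℤ).map (Int.castRingHom (ZMod q)) := by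
  induction x using OnePoint.rec with
  | infty =>
    ext i j
    fin_cases i <;> fin_cases j <;> simp [AZ, aRep, bRep, dRep, trZ, mkZ, hℓq]
  | coe k =>
    ext i j
    fin_cases i <;> fin_cases j <;> simp [AZ, aRep, bRep, dRep, trZ, mkZ, hℓq]

/-- the Hecke relation in `SL₂(ℤ/q)`, `ℓ ≡ 1 (mod q)`. -/
theorem cT_rel_zmod (hℓN : ¬ ℓ ∣ N) (hℓq : (ℓ : ZMod q) = 1) (γ : Gamma0 N)
    (x : OnePoint (ZMod ℓ)) :
    SpecialLinearGroup.map (Int.castRingHom (ZMod q)) (trZ (bRep ℓ x))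
        * SpecialLinearGroup.map (Int.castRingHom (ZMod q)) (γ : SL(2, ℤ))
      = SpecialLinearGroup.map (Int.castRingHom (ZMod q)) (cT hℓN γ x : SL(2, ℤ))
        * SpecialLinearGroup.map (Int.castRingHom (ZMod q))
            (trZ (bRep ℓ (redMatrix ℓ (γ : SL(2, ℤ)) • x))) := by
  have h : (AZ ℓ x * ((γ : SL(2, ℤ)) : Matrix (Fin 2) (Fin 2) ℤ)).map (Int.castRingHom (ZMod q))
      = (((cT hℓN γ x : SL(2, ℤ)) : Matrix (Fin 2) (Fin 2) ℤ)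
        * AZ ℓ (redMatrix ℓ (γ : SL(2, ℤ)) • x)).map (Int.castRingHom (ZMod q)) := by
    rw [cT_rel_int hℓN γ x]
  rw [Matrix.map_mul, Matrix.map_mul, AZ_map_zmod hℓq, AZ_map_zmod hℓq] at h
  refine Matrix.SpecialLinearGroup.ext _ _ fun i j => ?_
  have hij := congrFun (congrFun h i) j
  exact hij

/-! ### the twisted cocycle -/

/-- the permutation `x ↦ x·γ` of `P¹(𝔽_ℓ)`. -/
noncomputable def sigP {M : ℕ} (γ : Gamma0 M) : Equiv.Perm (OnePoint (ZMod ℓ)) :=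
  MulAction.toPerm (redMatrix ℓ (γ : SL(2, ℤ)))

omit hq in
theorem sigP_apply {M : ℕ} (γ : Gamma0 M) (x : OnePoint (ZMod ℓ)) :
    sigP γ x = redMatrix ℓ (γ : SL(2, ℤ)) • x := rfl

omit hq in
theorem sigP_mul {M : ℕ} (g h : Gamma0 M) (x : OnePoint (ZMod ℓ)) :
    sigP (g * h) x = sigP h (sigP g x) := by
  rw [sigP_apply, sigP_apply, sigP_apply, Subgroup.coe_mul, redMatrix_mul, mul_smul]

/-- the twisted Hecke cocycle `cTw γ x = t_x⁻¹ * cT γ x * t_{x·γ}`. -/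
noncomputable def cTw (hℓN : ¬ ℓ ∣ N) (γ : Gamma0 N) (x : OnePoint (ZMod ℓ)) : Gamma0 N :=
  (tRep N ℓ x)⁻¹ * cT hℓN γ x * tRep N ℓ (sigP γ x)

omit hq in
theorem cTw_mul (hℓN : ¬ ℓ ∣ N) (g h : Gamma0 N) (x : OnePoint (ZMod ℓ)) :
    cTw hℓN (g * h) x = cTw hℓN g x * cTw hℓN h (sigP g x) := by
  unfold cTw
  rw [sigP_mul g h x, cT_mul hℓN g h x, ← sigP_apply g x]
  group

theorem cTw_mem_KSub (hℓN : ¬ ℓ ∣ N) (hℓq : (ℓ : ZMod q) = 1) (γ : Gamma0 N)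
    (x : OnePoint (ZMod ℓ)) : γ⁻¹ * cTw hℓN γ x ∈ KSub N q := by
  rw [mem_KSub_iff]
  have h := cT_rel_zmod (q := q) hℓN hℓq γ x
  unfold cTw
  simp only [Subgroup.coe_mul, Subgroup.coe_inv, map_mul, map_inv]
  have e1 : ((tRep N ℓ x : Gamma0 N) : SL(2, ℤ)) = trZ (bRep ℓ x) := rfl
  have e2 : ((tRep N ℓ (sigP γ x) : Gamma0 N) : SL(2, ℤ))
      = trZ (bRep ℓ (redMatrix ℓ (γ : SL(2, ℤ)) • x)) := rfl
  rw [e1, e2]
  have h2 := eq_mul_inv_of_mul_eq h.symm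
  rw [h2]
  group

end Fermat.Agent.GE9.Ihara2
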