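/-
GATE-E / E9-IHARA2 (helper46), file 4: the twisted Hecke cocycle of level `N` along the two
embeddings `degenOne, degenDelta : Γ₀(N q) → Γ₀(N)`:

* `degenOne (cTw e x) = cTw (degenOne e) x`  (same representatives);
* `cTw (degenDelta e) (q x) = degenDelta (s_x⁻¹ * cT e x * s_{x·e})` (`s_x` a translation), via
  `α_{q x} δ = T^m δ α_x` and the distinctness of the Hecke cosets;
* the telescoping sums `∑ f (g⁻¹ * cTw g x) = (T_ℓ f - (ℓ+1) f) g`.
-/
import Mathlib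
import Fermat.Agent.GE9.Ihara2.Cocycle

set_option autoImplicit false

open scoped MatrixGroups
open CongruenceSubgroup Matrix Matrix.SpecialLinearGroup
open P2MW.S_ModularForm_heckeT_slash_eq_self_of_mem_Gamma0.ModularForm.HeckeSlashInvariance
open P2MW.S_ModularForm_heckeT_slash_eq_self_of_mem_Gamma0.ModularForm
open Fermat.Agent.S16_helper49
open Fermat.Agent.GM.Amalgam
open Fermat.Agent.GM.B
open Fermat.Agent.GM.B5
open Fermat.Agent.GM.EisClass
open ModularForm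
open scoped OnePoint

namespace Fermat.Agent.GE9.Ihara2

variable {N q ℓ : ℕ} [hq : Fact q.Prime] [hℓ : Fact ℓ.Prime]

/-! ### the telescoping sum -/

theorem card_onePoint : Fintype.card (OnePoint (ZMod ℓ)) = ℓ + 1 := by
  change Fintype.card (Option (ZMod ℓ)) = ℓ + 1
  rw [Fintype.card_option, ZMod.card]

/-- **telescoping**: for translations `s_x` (any family) the sum of `f` over
`g⁻¹ * (s_x⁻¹ * cT g x * s_{x·g})` is `(T_ℓ f - (ℓ + 1) f) g`. -/
theorem sum_twisted {M : ℕ} (hℓM : ¬ ℓ ∣ M) {A : Type*} [AddCommGroup A]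
    (f : Additive (Gamma0 M) →+ A) (s : OnePoint (ZMod ℓ) → Gamma0 M) (g : Gamma0 M) :
    ∑ x : OnePoint (ZMod ℓ),
        f (Additive.ofMul (g⁻¹ * ((s x)⁻¹ * cT hℓM g x * s (sigP g x))))
      = cohT hℓM A f (Additive.ofMul g) - (ℓ + 1) • f (Additive.ofMul g) := by
  have hterm : ∀ x : OnePoint (ZMod ℓ),
      f (Additive.ofMul (g⁻¹ * ((s x)⁻¹ * cT hℓM g x * s (sigP g x))))
        = f (Additive.ofMul (cT hℓM g x)) - f (Additive.ofMul g)
          + (f (Additive.ofMul (s (sigP g x))) - f (Additive.ofMul (s x))) := by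
    intro x
    rw [ofMul_mul, ofMul_mul, ofMul_mul, ofMul_inv, ofMul_inv, map_add, map_add, map_add,
      map_neg, map_neg]
    abel
  rw [Finset.sum_congr rfl (fun x _ => hterm x), Finset.sum_add_distrib, Finset.sum_sub_distrib,
    Finset.sum_sub_distrib,
    Equiv.sum_comp (sigP g) (fun x => f (Additive.ofMul (s x))), sub_self, add_zero,
    Finset.sum_const, Finset.card_univ, card_onePoint, cohT_apply]

/-! ### the side of `degenOne` -/

omit hq in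
theorem cT_degenOne (hℓN : ¬ ℓ ∣ N) (hℓNq : ¬ ℓ ∣ N * q) (e : Gamma0 (N * q))
    (x : OnePoint (ZMod ℓ)) :
    degenOne N q (cT hℓNq e x) = cT hℓN (degenOne N q e) x := by
  have h1 := cT_rel hℓNq e x
  have h2 := cT_rel hℓN (degenOne N q e) x
  rw [degenOne_coe] at h2
  have h3 := h1.symm.trans h2
  have h4 := mul_right_cancel h3
  have h5 := mapGL_injective (R := ℤ) (S := ℝ) h4
  apply Subtype.ext
  rw [degenOne_coe]
  exact h5

omit hq in
theorem sigma_degenOne (e : Gamma0 (N * q)) (x : OnePoint (ZMod ℓ)) :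
    sigP (degenOne N q e) x = sigP e x := by
  rw [sigP_apply, sigP_apply, degenOne_coe]

omit hq in
theorem degenOne_tRep (x : OnePoint (ZMod ℓ)) :
    degenOne N q (tRep (N * q) ℓ x) = tRep N ℓ x := by
  apply Subtype.ext
  rw [degenOne_coe]
  rfl

omit hq in
theorem degenOne_cTw (hℓN : ¬ ℓ ∣ N) (hℓNq : ¬ ℓ ∣ N * q) (e : Gamma0 (N * q))
    (x : OnePoint (ZMod ℓ)) :
    degenOne N q (cTw hℓNq e x) = cTw hℓN (degenOne N q e) x := by
  unfold cTw
  rw [map_mul, map_mul, map_inv, degenOne_tRep, degenOne_tRep, cT_degenOne hℓN hℓNq,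
    sigma_degenOne]

/-! ### the side of `degenDelta` -/

theorem dvd_sub_one_of_cast_eq_one (hℓq : (ℓ : ZMod q) = 1) : (q : ℤ) ∣ (ℓ : ℤ) - 1 := by
  rw [← ZMod.intCast_zmod_eq_zero_iff_dvd]
  push_cast
  rw [hℓq, sub_self]

/-- `α_{q x} δ = T^m δ α_x` with `b_{q x} = m + q r`. -/
theorem exists_shift (hqℓ : (q : ZMod ℓ) ≠ 0) (hℓq : (ℓ : ZMod q) = 1) (x : OnePoint (ZMod ℓ)) :
    ∃ m r : ℤ, heckeRep ℓ (mulQ hqℓ x) * dlt q = embR (trZ m) * (dlt q * heckeRep ℓ x) ∧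
      bRep ℓ (mulQ hqℓ x) = m + q * r := by
  have hq0 : q ≠ 0 := hq.out.ne_zero
  have hℓ0 : ℓ ≠ 0 := hℓ.out.ne_zero
  induction x using OnePoint.rec with
  | infty =>
    refine ⟨0, 0, ?_, ?_⟩
    · rw [mulQ_infty, heckeRep_infty]
      ext a b
      fin_cases a <;> fin_cases b <;>
        (simp [hq0, hℓ0, trZ, Matrix.mul_apply, Fin.sum_univ_two]; try ring)
    · rw [mulQ_infty]
      simp [bRep]
  | coe k =>
    obtain ⟨m, hm⟩ : ∃ m : ℤ, ((((q : ZMod ℓ) * k : ZMod ℓ).val : ℤ)) = q * k.val + m * ℓ := by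
      have h0 : (((((q : ZMod ℓ) * k : ZMod ℓ).val : ℤ) - q * k.val : ℤ) : ZMod ℓ) = 0 := by
        push_cast
        rw [ZMod.natCast_zmod_val, ZMod.natCast_zmod_val]
        ring
      obtain ⟨m, hm⟩ := (ZMod.intCast_zmod_eq_zero_iff_dvd _ _).mp h0
      exact ⟨m, by linarith⟩
    obtain ⟨s, hs⟩ := dvd_sub_one_of_cast_eq_one hℓq
    refine ⟨m, k.val + m * s, ?_, ?_⟩
    · have hmR : ((((q : ZMod ℓ) * k : ZMod ℓ).val : ℝ)) = q * k.val + m * ℓ := by exact_mod_cast hm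
      rw [mulQ_coe, heckeRep_coe, heckeRep_coe]
      ext a b
      fin_cases a <;> fin_cases b <;>
        (simp [hq0, hℓ0, trZ, Matrix.mul_apply, Fin.sum_univ_two, hmR]; try ring)
    · rw [mulQ_coe]
      show ((((q : ZMod ℓ) * k : ZMod ℓ).val : ℤ)) = m + q * (k.val + m * s)
      rw [hm]
      linear_combination m * hs

/-- the chosen shift `m_x`. -/
noncomputable def mS (hqℓ : (q : ZMod ℓ) ≠ 0) (hℓq : (ℓ : ZMod q) = 1) (x : OnePoint (ZMod ℓ)) : ℤ :=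
  (exists_shift hqℓ hℓq x).choose

/-- the chosen quotient `r_x`, `b_{q x} = m_x + q r_x`. -/
noncomputable def rS (hqℓ : (q : ZMod ℓ) ≠ 0) (hℓq : (ℓ : ZMod q) = 1) (x : OnePoint (ZMod ℓ)) : ℤ :=
  (exists_shift hqℓ hℓq x).choose_spec.choose

theorem mS_spec (hqℓ : (q : ZMod ℓ) ≠ 0) (hℓq : (ℓ : ZMod q) = 1) (x : OnePoint (ZMod ℓ)) :
    heckeRep ℓ (mulQ hqℓ x) * dlt q = embR (trZ (mS hqℓ hℓq x)) * (dlt q * heckeRep ℓ x) :=
  (exists_shift hqℓ hℓq x).choose_spec.choose_spec.1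

theorem rS_spec (hqℓ : (q : ZMod ℓ) ≠ 0) (hℓq : (ℓ : ZMod q) = 1) (x : OnePoint (ZMod ℓ)) :
    bRep ℓ (mulQ hqℓ x) = mS hqℓ hℓq x + q * rS hqℓ hℓq x :=
  (exists_shift hqℓ hℓq x).choose_spec.choose_spec.2

/-- `degenDelta (1, r; 0, 1) = (1, q r; 0, 1)`. -/
theorem degenDelta_trZ (r : ℤ) :
    degenDelta N q ⟨trZ r, trZ_mem (N * q) r⟩ = ⟨trZ ((q : ℤ) * r), trZ_mem N _⟩ := by
  obtain ⟨e00, e01, e10, e11⟩ := degenDelta_entries (N := N) (q := q) ⟨trZ r, trZ_mem (N * q) r⟩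
  apply Subtype.ext
  refine sl2_ext ?_ ?_ ?_ ?_
  · rw [e00]; simp [trZ]
  · rw [e01]; simp [trZ]
  · have : (q : ℤ) * ((degenDelta N q ⟨trZ r, trZ_mem (N * q) r⟩ : Gamma0 N) : SL(2, ℤ)) 1 0
        = (q : ℤ) * 0 := by
      rw [e10]; simp [trZ]
    have h0 := mul_left_cancel₀ (qZ_ne_zero (q := q)) this
    rw [h0]; simp [trZ]
  · rw [e11]; simp [trZ]

/-- **the Hecke relation along `degenDelta`**. -/
theorem cT_degenDelta (hℓN : ¬ ℓ ∣ N) (hℓNq : ¬ ℓ ∣ N * q) (hqℓ : (q : ZMod ℓ) ≠ 0)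
    (hℓq : (ℓ : ZMod q) = 1) (e : Gamma0 (N * q)) (x : OnePoint (ZMod ℓ)) :
    sigP (degenDelta N q e) (mulQ hqℓ x) = mulQ hqℓ (sigP e x) ∧
    cT hℓN (degenDelta N q e) (mulQ hqℓ x)
      = ⟨trZ (mS hqℓ hℓq x), trZ_mem N _⟩ * degenDelta N q (cT hℓNq e x)
        * (⟨trZ (mS hqℓ hℓq (sigP e x)), trZ_mem N _⟩ : Gamma0 N)⁻¹ := by
  set y := sigP e x with hy
  have R1 := mS_spec hqℓ hℓq x
  have R2 := mS_spec hqℓ hℓq y
  have R3 : heckeRep ℓ x * embR (e : SL(2, ℤ))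
      = embR ((cT hℓNq e x : Gamma0 (N * q)) : SL(2, ℤ)) * heckeRep ℓ y := cT_rel hℓNq e x
  have R4 := dlt_rel_degenDelta (N := N) (q := q) e
  have R5 := dlt_rel_degenDelta (N := N) (q := q) (cT hℓNq e x)
  have R6 : heckeRep ℓ (mulQ hqℓ x) * embR ((degenDelta N q e : Gamma0 N) : SL(2, ℤ))
      = embR ((cT hℓN (degenDelta N q e) (mulQ hqℓ x) : Gamma0 N) : SL(2, ℤ))
        * heckeRep ℓ (sigP (degenDelta N q e) (mulQ hqℓ x)) :=
    cT_rel hℓN (degenDelta N q e) (mulQ hqℓ x)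
  set κ : SL(2, ℤ) := trZ (mS hqℓ hℓq x) * ((degenDelta N q (cT hℓNq e x) : Gamma0 N) : SL(2, ℤ))
    * (trZ (mS hqℓ hℓq y))⁻¹ with hκ
  -- the relation with `κ`
  have key : heckeRep ℓ (mulQ hqℓ x) * embR ((degenDelta N q e : Gamma0 N) : SL(2, ℤ))
      = embR κ * heckeRep ℓ (mulQ hqℓ y) := by
    have R2' : dlt q * heckeRep ℓ y
        = (embR (trZ (mS hqℓ hℓq y)))⁻¹ * (heckeRep ℓ (mulQ hqℓ y) * dlt q) := by
      rw [R2, inv_mul_cancel_left]
    have e1 : heckeRep ℓ (mulQ hqℓ x) * embR ((degenDelta N q e : Gamma0 N) : SL(2, ℤ)) * dlt q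
        = embR κ * heckeRep ℓ (mulQ hqℓ y) * dlt q := by
      calc heckeRep ℓ (mulQ hqℓ x) * embR ((degenDelta N q e : Gamma0 N) : SL(2, ℤ)) * dlt q
          = heckeRep ℓ (mulQ hqℓ x) * (dlt q * embR (e : SL(2, ℤ))) := by rw [mul_assoc, R4]
        _ = embR (trZ (mS hqℓ hℓq x)) * (dlt q * (heckeRep ℓ x * embR (e : SL(2, ℤ)))) := by
            rw [← mul_assoc, R1]; simp only [mul_assoc]
        _ = embR (trZ (mS hqℓ hℓq x))
              * (dlt q * embR ((cT hℓNq e x : Gamma0 (N * q)) : SL(2, ℤ)) * heckeRep ℓ y) := by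
            rw [R3]; simp only [mul_assoc]
        _ = embR (trZ (mS hqℓ hℓq x))
              * (embR ((degenDelta N q (cT hℓNq e x) : Gamma0 N) : SL(2, ℤ))
                * (dlt q * heckeRep ℓ y)) := by
            rw [R5]; simp only [mul_assoc]
        _ = embR κ * heckeRep ℓ (mulQ hqℓ y) * dlt q := by
            rw [R2', hκ]
            simp only [map_mul, map_inv, mul_assoc]
    exact mul_right_cancel e1
  -- distinctness
  have h7 := R6.symm.trans key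
  have h8 : heckeRep ℓ (sigP (degenDelta N q e) (mulQ hqℓ x))
      = embR (((cT hℓN (degenDelta N q e) (mulQ hqℓ x) : Gamma0 N) : SL(2, ℤ))⁻¹ * κ)
        * heckeRep ℓ (mulQ hqℓ y) := by
    rw [map_mul, map_inv, mul_assoc, ← h7, inv_mul_cancel_left]
  have h9 := heckeRep_injective_mod _ _ _ h8
  refine ⟨h9, ?_⟩
  rw [h9] at h7
  have h10 := mapGL_injective (R := ℤ) (S := ℝ) (mul_right_cancel h7)
  apply Subtype.ext
  rw [h10, hκ]
  rfl

end Fermat.Agent.GE9.Ihara2
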