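/-
GATE-E / E9-IHARA2 (helper46), file 5: **the level `q → q²` step** (Wiles, Lemma 2.5, in the form
"the obstruction is killed by `T_ℓ - (ℓ + 1)`, `ℓ ≡ 1 (mod q)`"):

if `u, v ∈ Hom(Γ₀(N q), A)` satisfy `u (g) + v (δ g δ⁻¹) = 0` on `Γ₀(N q²)`, then for every prime
`ℓ ∤ N q`, `ℓ ≡ 1 (mod q)` there is `w ∈ Hom(Γ₀(N), A)` with

  `res w = -(T_ℓ v - (ℓ + 1) v)`,   `res_δ w = T_ℓ u - (ℓ + 1) u`.

No hypothesis on `A` (in particular `A = ℤ/p` with `p = q` or `p ∣ q ± 1` allowed).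
-/
import Mathlib
import Fermat.Agent.GE9.Ihara2.Sides

set_option autoImplicit false

open scoped MatrixGroups
open CongruenceSubgroup Matrix Matrix.SpecialLinearGroup
open P2MW.S_ModularForm_heckeT_slash_eq_self_of_mem_Gamma0.ModularForm.HeckeSlashInvariance
open P2MW.S_ModularForm_heckeT_slash_eq_self_of_mem_Gamma0.ModularForm
open Fermat.Agent.S16_helper49
open Fermat.Agent.GM.Amalgam
open Fermat.Agent.GM.B
open Fermat.Agent.GM.B5
open Fermat.Agent.GM.EisClass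
open ModularForm
open scoped OnePoint

namespace Fermat.Agent.GE9.Ihara2

variable {N q ℓ : ℕ} [hq : Fact q.Prime] [hℓ : Fact ℓ.Prime]

/-- the translation `(1, a; 0, 1)` in `Γ₀(M)`. -/
def TM (M : ℕ) (a : ℤ) : Gamma0 M := ⟨trZ a, trZ_mem M a⟩

theorem TM_add (M : ℕ) (a b : ℤ) : TM M (a + b) = TM M a * TM M b :=
  Subtype.ext (trZ_add a b)

theorem degenDelta_TM (r : ℤ) : degenDelta N q (TM (N * q) r) = TM N ((q : ℤ) * r) :=
  degenDelta_trZ r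

/-- **the `degenDelta`-side of the twisted cocycle**. -/
theorem degenDelta_side (hℓN : ¬ ℓ ∣ N) (hℓNq : ¬ ℓ ∣ N * q) (hqℓ : (q : ZMod ℓ) ≠ 0)
    (hℓq : (ℓ : ZMod q) = 1) (e : Gamma0 (N * q)) (x : OnePoint (ZMod ℓ)) :
    degenDelta N q (e⁻¹ * ((TM (N * q) (rS hqℓ hℓq x))⁻¹ * cT hℓNq e x
        * TM (N * q) (rS hqℓ hℓq (sigP e x))))
      = (degenDelta N q e)⁻¹ * cTw hℓN (degenDelta N q e) (mulQ hqℓ x) := by
  obtain ⟨hσ, hc⟩ := cT_degenDelta hℓN hℓNq hqℓ hℓq e x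
  unfold cTw
  rw [hσ, hc]
  have t1 : tRep N ℓ (mulQ hqℓ x) = TM N (mS hqℓ hℓq x) * TM N ((q : ℤ) * rS hqℓ hℓq x) := by
    rw [← TM_add, ← rS_spec]
    rfl
  have t2 : tRep N ℓ (mulQ hqℓ (sigP e x))
      = TM N (mS hqℓ hℓq (sigP e x)) * TM N ((q : ℤ) * rS hqℓ hℓq (sigP e x)) := by
    rw [← TM_add, ← rS_spec]
    rfl
  rw [t1, t2, map_mul, map_mul, map_mul, map_inv, map_inv, degenDelta_TM, degenDelta_TM]
  show _ = _⁻¹ * ((TM N (mS hqℓ hℓq x) * TM N ((q : ℤ) * rS hqℓ hℓq x))⁻¹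
    * (TM N (mS hqℓ hℓq x) * degenDelta N q (cT hℓNq e x) * (TM N (mS hqℓ hℓq (sigP e x)))⁻¹)
    * (TM N (mS hqℓ hℓq (sigP e x)) * TM N ((q : ℤ) * rS hqℓ hℓq (sigP e x))))
  group

/-- **The level `q → q²` step.** -/
theorem exists_hom_of_rel (hqN : ¬ q ∣ N) (hℓN : ¬ ℓ ∣ N) (hℓNq : ¬ ℓ ∣ N * q)
    (hℓq : (ℓ : ZMod q) = 1) {A : Type*} [AddCommGroup A]
    (u v : Additive (Gamma0 (N * q)) →+ A)
    (hrel : ∀ g : Gamma0 (N * q * q),
      u (Additive.ofMul (degenOne (N * q) q g)) + v (Additive.ofMul (degenDelta (N * q) q g)) = 0) :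
    ∃ w : Additive (Gamma0 N) →+ A,
      res A N q w = -(cohT hℓNq A v - (ℓ + 1) • v) ∧
      resD A N q w = cohT hℓNq A u - (ℓ + 1) • u := by
  have hqℓ : (q : ZMod ℓ) ≠ 0 := natCast_ne_zero_of_not_dvd_mul hℓNq
  obtain ⟨w, hw1, hw2⟩ := exists_glue_hecke (ι₁ := degenOne N q) (ι₂ := degenDelta N q)
    (K := KSub N q) (σ := fun γ : Gamma0 N => sigP (ℓ := ℓ) γ) (c := cTw hℓN) (f₁ := -v) (f₂ := u)
    degenOne_injective (KSub_le_range_degenOne hqN) KSub_le_range_degenDelta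
    (range_sup_range hqN) (agree_of_rel u v hrel)
    (fun g h x => cTw_mul hℓN g h x) (fun g x => cTw_mem_KSub hℓN hℓq g x)
  refine ⟨w, ?_, ?_⟩
  · refine AddMonoidHom.ext fun e' => ?_
    obtain ⟨e, rfl⟩ : ∃ e : Gamma0 (N * q), Additive.ofMul e = e' := ⟨Additive.toMul e', rfl⟩
    rw [res_apply, hw1 e (fun x => e⁻¹ * cTw hℓNq e x)
      (fun x => by rw [map_mul, map_inv, degenOne_cTw hℓN hℓNq])]
    have := sum_twisted hℓNq (-v) (tRep (N * q) ℓ) e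
    unfold cTw
    rw [this, map_neg]
    simp only [AddMonoidHom.neg_apply, AddMonoidHom.sub_apply, AddMonoidHom.smul_apply, smul_neg]
    abel
  · refine AddMonoidHom.ext fun e' => ?_
    obtain ⟨e, rfl⟩ : ∃ e : Gamma0 (N * q), Additive.ofMul e = e' := ⟨Additive.toMul e', rfl⟩
    set π := mulQ hqℓ with hπ
    let d : OnePoint (ZMod ℓ) → Gamma0 (N * q) := fun y =>
      e⁻¹ * ((TM (N * q) (rS hqℓ hℓq (π.symm y)))⁻¹ * cT hℓNq e (π.symm y)
        * TM (N * q) (rS hqℓ hℓq (sigP e (π.symm y))))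
    have hd : ∀ y, degenDelta N q (d y)
        = (degenDelta N q e)⁻¹ * cTw hℓN (degenDelta N q e) y := by
      intro y
      have := degenDelta_side hℓN hℓNq hqℓ hℓq e (π.symm y)
      rw [← hπ, Equiv.apply_symm_apply] at this
      exact this
    rw [resD_apply, hw2 e d hd, ← Equiv.sum_comp π]
    have hsum : ∀ x, u (Additive.ofMul (d (π x)))
        = u (Additive.ofMul (e⁻¹ * ((TM (N * q) (rS hqℓ hℓq x))⁻¹ * cT hℓNq e x
          * TM (N * q) (rS hqℓ hℓq (sigP e x))))) := by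
      intro x
      show u (Additive.ofMul (e⁻¹ * ((TM (N * q) (rS hqℓ hℓq (π.symm (π x))))⁻¹
        * cT hℓNq e (π.symm (π x)) * TM (N * q) (rS hqℓ hℓq (sigP e (π.symm (π x))))))) = _
      rw [Equiv.symm_apply_apply]
    rw [Finset.sum_congr rfl (fun x _ => hsum x),
      sum_twisted hℓNq u (fun x => TM (N * q) (rS hqℓ hℓq x)) e]
    rfl

end Fermat.Agent.GE9.Ihara2
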