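/-
GATE-E / E9-IHARA2 (helper46), file 6: **Ihara's lemma for level `N → N q²`** (Wiles, Lemma 2.5;
DDT §4.4), in the `GM/**` vocabulary.

For `q ∤ N` prime, `p` with the congruence subgroup property `CSPStmt N q (ℤ/p)` (a theorem for
every prime `p ≠ 2`, `GM/CSP/Main.cspStmt`), primes `ℓ ≡ 1 (mod q)`, `ℓ ∤ N`, and `ℓ' ∤ N`:
if three parabolic classes `x, y, z` of level `N` satisfy

  `x (g) + y (δ g δ⁻¹) + z (δ² g δ⁻²) ≡ 0 (mod p)`  on `Γ₀(N q²)`,

then `(T_ℓ' - (ℓ'+1)) (T_ℓ - (ℓ+1))` kills `x, y, z` modulo `p`.  NO condition relating `p` and `q`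
(`p = q`, `p ∣ q ± 1` allowed).  Consumer: localise at a non-Eisenstein `𝔪`; then
`α₃ : L_𝔪³ → L''_𝔪` is injective with saturated image.

* `ihara1_kills`  : mod-`p`-hom form of `GM/Ihara/IharaAsm.kills_Gamma1_of_csp`;
* `ihara2_kills`  : `E x̄, E ȳ, E z̄` kill `{d ≡ 1 (N)}`, `E = T_ℓ - (ℓ+1)`;
* `ihara2_hom`    : `E' E x̄ = E' E ȳ = E' E z̄ = 0`;
* `ihara2_mod_p`  : the integral pointwise form.
-/
import Mathlib
import Fermat.Agent.GE9.Ihara2.Step
import Fermat.Agent.GM.Ihara.IharaAsm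

set_option autoImplicit false

open scoped MatrixGroups
open CongruenceSubgroup Matrix Matrix.SpecialLinearGroup ModularCurve.Period
open Fermat.Agent.S16_helper49
open Fermat.Agent.GM.Amalgam
open Fermat.Agent.GM.B
open Fermat.Agent.GM.B5
open Fermat.Agent.GM.EisClass
open Fermat.Agent.GM.Ihara

namespace Fermat.Agent.GE9.Ihara2

variable {N q ℓ : ℕ} [hq : Fact q.Prime] [hℓ : Fact ℓ.Prime]

/-! ### Ihara (i), for homomorphisms to `ℤ/p` -/

/-- a homomorphism `Γ₀(N) → ℤ/p`, written multiplicatively. -/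
noncomputable def mulHom {p : ℕ} (α : Additive (Gamma0 N) →+ ZMod p) :
    Gamma0 N →* Multiplicative (ZMod p) where
  toFun g := Multiplicative.ofAdd (α (Additive.ofMul g))
  map_one' := by rw [ofMul_one, map_zero, ofAdd_zero]
  map_mul' g h := by rw [ofMul_mul, map_add, ofAdd_add]

omit hq in
theorem mulHom_eq_one_iff {p : ℕ} (α : Additive (Gamma0 N) →+ ZMod p) (g : Gamma0 N) :
    mulHom α g = 1 ↔ α (Additive.ofMul g) = 0 := by
  show Multiplicative.ofAdd (α (Additive.ofMul g)) = 1 ↔ _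
  rw [← ofAdd_zero, Multiplicative.ofAdd.injective.eq_iff]

/-- **Ihara (i) modulo `p`, hom form**: if `α ∘ 1 + β ∘ δ = 0` on `Γ₀(N q)` and `α, β` kill the
elementary matrices of `Γ₀(N)`, then `α, β` kill `{d ≡ 1 (mod N)}`. -/
theorem ihara1_kills (hqN : ¬ q ∣ N) (p : ℕ) (hcsp : CSPStmt N q (Multiplicative (ZMod p)))
    (α β : Additive (Gamma0 N) →+ ZMod p)
    (hαβ : ∀ g : Gamma0 (N * q),
      α (Additive.ofMul (degenOne N q g)) + β (Additive.ofMul (degenDelta N q g)) = 0)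
    (hαu : ∀ m : ℤ, α (Additive.ofMul (⟨uZ m, uZ_mem_Gamma0 m⟩ : Gamma0 N)) = 0)
    (hαl : ∀ m : ℤ, α (Additive.ofMul (⟨lZ ((N : ℤ) * m), lZ_mem_Gamma0 m⟩ : Gamma0 N)) = 0)
    (hβu : ∀ m : ℤ, β (Additive.ofMul (⟨uZ m, uZ_mem_Gamma0 m⟩ : Gamma0 N)) = 0)
    (hβl : ∀ m : ℤ, β (Additive.ofMul (⟨lZ ((N : ℤ) * m), lZ_mem_Gamma0 m⟩ : Gamma0 N)) = 0)
    (g : Gamma0 N) (hg : ((((g : SL(2, ℤ)) 1 1 : ℤ)) : ZMod N) = 1) :
    α (Additive.ofMul g) = 0 ∧ β (Additive.ofMul g) = 0 := by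
  set a := mulHom α with ha
  set b := mulHom (-β) with hb
  have hab : ∀ g : Gamma0 (N * q), a (degenOne N q g) = b (degenDelta N q g) := by
    intro g
    show Multiplicative.ofAdd (α _) = Multiplicative.ofAdd ((-β) _)
    rw [AddMonoidHom.neg_apply, eq_neg_of_add_eq_zero_left (hαβ g)]
  obtain ⟨Φ, h1, h2, hU, hL⟩ := exists_glue_int_elementary hqN a b hab
    (fun m => (mulHom_eq_one_iff α _).mpr (hαu m))
    (fun m => (mulHom_eq_one_iff α _).mpr (hαl m))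
    (fun m => (mulHom_eq_one_iff (-β) _).mpr (by rw [AddMonoidHom.neg_apply, hβu m, neg_zero]))
    (fun m => (mulHom_eq_one_iff (-β) _).mpr (by rw [AddMonoidHom.neg_apply, hβl m, neg_zero]))
  have hΦ := hcsp Φ hU hL
  have hd : (castQ (g : SL(2, ℤ))) 1 1 - 1 ∈ NZq q N := by
    rw [mem_NZq_iff]
    refine ⟨0, (g : SL(2, ℤ)) 1 1 - 1, ?_, ?_⟩
    · rw [← ZMod.intCast_zmod_eq_zero_iff_dvd, Int.cast_sub, hg, Int.cast_one, sub_self]
    · rw [castQ_apply]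
      push_cast
      ring
  have hd' : (conjD q (castQ (g : SL(2, ℤ)))) 1 1 - 1 ∈ NZq q N := by
    rw [conjD_11]
    exact hd
  have e1 := hΦ ⟨castQ (g : SL(2, ℤ)), Gam_le_DeltaQ (castQ_mem_Gam g)⟩ hd
  have e2 := hΦ ⟨conjD q (castQ (g : SL(2, ℤ))), Gam'_le_DeltaQ (conjD_castQ_mem_Gam' g)⟩ hd'
  rw [h1 g] at e1
  rw [h2 g] at e2
  refine ⟨(mulHom_eq_one_iff α g).mp e1, ?_⟩
  have e3 := (mulHom_eq_one_iff (-β) g).mp e2
  rw [AddMonoidHom.neg_apply, neg_eq_zero] at e3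
  exact e3

/-! ### parabolic classes and the operators -/

omit hq in
theorem cohT_isParabolicHom {M : ℕ} (hℓM : ¬ ℓ ∣ M) {A : Type*} [AddCommGroup A]
    (φ : Additive (Gamma0 M) →+ A) (hφ : IsParabolicHom (Gamma0 M) φ) :
    IsParabolicHom (Gamma0 M) (cohT hℓM A φ) := by
  rw [← heckeSys_op]
  exact op_isParabolicHom (heckeSys hℓM) φ hφ

omit hq in
theorem res_isParabolicHom {A : Type*} [AddCommGroup A]
    (φ : Additive (Gamma0 N) →+ A) (hφ : IsParabolicHom (Gamma0 N) φ) :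
    IsParabolicHom (Gamma0 (N * q)) (res A N q φ) :=
  op_isParabolicHom (resSys N q) φ hφ

theorem resD_isParabolicHom {A : Type*} [AddCommGroup A]
    (φ : Additive (Gamma0 N) →+ A) (hφ : IsParabolicHom (Gamma0 N) φ) :
    IsParabolicHom (Gamma0 (N * q)) (resD A N q φ) :=
  op_isParabolicHom (resDSys N q) φ hφ

omit hq hℓ in
theorem isParabolicHom_sub_smul {M : ℕ} {A : Type*} [AddCommGroup A] (n : ℕ)
    (φ ψ : Additive (Gamma0 M) →+ A) (hφ : IsParabolicHom (Gamma0 M) φ)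
    (hψ : IsParabolicHom (Gamma0 M) ψ) : IsParabolicHom (Gamma0 M) (φ - n • ψ) := by
  intro γ hγ
  rw [AddMonoidHom.sub_apply, AddMonoidHom.smul_apply, hφ γ hγ, hψ γ hγ, smul_zero, sub_zero]

/-- the "Eisenstein killer" `E_ℓ = T_ℓ - (ℓ + 1)` on `Hom(Γ₀(M), A)`. -/
noncomputable def eisK {M : ℕ} (hℓM : ¬ ℓ ∣ M) (A : Type*) [AddCommGroup A]
    (φ : Additive (Gamma0 M) →+ A) : Additive (Gamma0 M) →+ A :=
  cohT hℓM A φ - (ℓ + 1) • φ

omit hq in
theorem eisK_isParabolicHom {M : ℕ} (hℓM : ¬ ℓ ∣ M) {A : Type*} [AddCommGroup A]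
    (φ : Additive (Gamma0 M) →+ A) (hφ : IsParabolicHom (Gamma0 M) φ) :
    IsParabolicHom (Gamma0 M) (eisK hℓM A φ) :=
  isParabolicHom_sub_smul (ℓ + 1) _ _ (cohT_isParabolicHom hℓM φ hφ) hφ

theorem eisK_res (hℓNq : ¬ ℓ ∣ N * q) {A : Type*} [AddCommGroup A]
    (φ : Additive (Gamma0 N) →+ A) :
    eisK hℓNq A (res A N q φ) = res A N q (eisK (not_dvd_of_not_dvd_mul hℓNq) A φ) := by
  unfold eisK
  rw [map_sub, map_nsmul, res_cohT hℓNq]

theorem eisK_resD (hqN : ¬ q ∣ N) (hℓNq : ¬ ℓ ∣ N * q) {A : Type*} [AddCommGroup A]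
    (φ : Additive (Gamma0 N) →+ A) :
    eisK hℓNq A (resD A N q φ) = resD A N q (eisK (not_dvd_of_not_dvd_mul hℓNq) A φ) := by
  unfold eisK
  rw [map_sub, map_nsmul, resD_cohT hqN hℓNq]

omit hq in
theorem eisK_add {M : ℕ} (hℓM : ¬ ℓ ∣ M) {A : Type*} [AddCommGroup A]
    (φ ψ : Additive (Gamma0 M) →+ A) :
    eisK hℓM A (φ + ψ) = eisK hℓM A φ + eisK hℓM A ψ := by
  unfold eisK
  rw [map_add, smul_add]
  abel

/-! ### the elementary matrices along the two embeddings -/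

omit hq in
theorem degenOne_uZ (m : ℤ) :
    degenOne N q ⟨uZ m, uZ_mem_Gamma0 m⟩ = ⟨uZ m, uZ_mem_Gamma0 m⟩ := by
  apply Subtype.ext
  rw [degenOne_coe]

theorem degenDelta_lZ (m : ℤ) :
    degenDelta N q ⟨lZ (((N * q : ℕ) : ℤ) * m), lZ_mem_Gamma0 m⟩
      = ⟨lZ ((N : ℤ) * m), lZ_mem_Gamma0 m⟩ := by
  obtain ⟨e00, e01, e10, e11⟩ := degenDelta_entries (N := N) (q := q)
    ⟨lZ (((N * q : ℕ) : ℤ) * m), lZ_mem_Gamma0 m⟩
  apply Subtype.ext
  refine sl2_ext ?_ ?_ ?_ ?_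
  · rw [e00]; simp [lZ]
  · rw [e01]; simp [lZ]
  · have : (q : ℤ) * ((degenDelta N q ⟨lZ (((N * q : ℕ) : ℤ) * m), lZ_mem_Gamma0 m⟩ : Gamma0 N) :
        SL(2, ℤ)) 1 0 = (q : ℤ) * ((N : ℤ) * m) := by
      rw [e10]; simp [lZ]; ring
    have h0 := mul_left_cancel₀ (qZ_ne_zero (q := q)) this
    rw [h0]; simp [lZ]
  · rw [e11]; simp [lZ]

/-! ### the main theorem -/

/-- **Ihara's lemma for `N → N q²`, kernel form.** -/
theorem ihara2_kills (hqN : ¬ q ∣ N) (p : ℕ) (hcsp : CSPStmt N q (Multiplicative (ZMod p)))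
    (hℓNq : ¬ ℓ ∣ N * q) (hℓq : (ℓ : ZMod q) = 1)
    (x y z : Additive (Gamma0 N) →+ ZMod p)
    (hx : IsParabolicHom (Gamma0 N) x) (hy : IsParabolicHom (Gamma0 N) y)
    (hz : IsParabolicHom (Gamma0 N) z)
    (hrel : ∀ g : Gamma0 (N * q * q),
      x (Additive.ofMul (degenOne N q (degenOne (N * q) q g)))
        + y (Additive.ofMul (degenDelta N q (degenOne (N * q) q g)))
        + z (Additive.ofMul (degenDelta N q (degenDelta (N * q) q g))) = 0)
    (g : Gamma0 N) (hg : ((((g : SL(2, ℤ)) 1 1 : ℤ)) : ZMod N) = 1) :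
    eisK (not_dvd_of_not_dvd_mul hℓNq) (ZMod p) x (Additive.ofMul g) = 0 ∧
    eisK (not_dvd_of_not_dvd_mul hℓNq) (ZMod p) y (Additive.ofMul g) = 0 ∧
    eisK (not_dvd_of_not_dvd_mul hℓNq) (ZMod p) z (Additive.ofMul g) = 0 := by
  have hℓN : ¬ ℓ ∣ N := not_dvd_of_not_dvd_mul hℓNq
  set A := ZMod p with hA
  set u : Additive (Gamma0 (N * q)) →+ A := res A N q x + resD A N q y with hu
  set v : Additive (Gamma0 (N * q)) →+ A := resD A N q z with hv
  have hrel' : ∀ g : Gamma0 (N * q * q),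
      u (Additive.ofMul (degenOne (N * q) q g)) + v (Additive.ofMul (degenDelta (N * q) q g))
        = 0 := by
    intro g
    rw [hu, hv, AddMonoidHom.add_apply, res_apply, resD_apply, resD_apply]
    exact hrel g
  obtain ⟨w, hw1, hw2⟩ := exists_hom_of_rel hqN hℓN hℓNq hℓq u v hrel'
  -- rewrite with the Eisenstein killer
  have hw1' : res A N q w = -(resD A N q (eisK hℓN A z)) := by
    rw [hw1, ← eisK_resD hqN hℓNq]
    rfl
  have hw2' : resD A N q w = res A N q (eisK hℓN A x) + resD A N q (eisK hℓN A y) := by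
    rw [hw2, ← eisK_res hℓNq, ← eisK_resD hqN hℓNq, ← eisK_add]
    rfl
  have hEx := eisK_isParabolicHom hℓN x hx
  have hEy := eisK_isParabolicHom hℓN y hy
  have hEz := eisK_isParabolicHom hℓN z hz
  -- `w` kills the elementary matrices
  have hwu : ∀ m : ℤ, w (Additive.ofMul (⟨uZ m, uZ_mem_Gamma0 m⟩ : Gamma0 N)) = 0 := by
    intro m
    have h1 := DFunLike.congr_fun hw1' (Additive.ofMul (⟨uZ m, uZ_mem_Gamma0 m⟩ : Gamma0 (N * q)))
    rw [res_apply, degenOne_uZ, AddMonoidHom.neg_apply,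
      resD_isParabolicHom _ hEz ⟨uZ m, uZ_mem_Gamma0 m⟩ (trace_uZ m), neg_zero] at h1
    exact h1
  have hwl : ∀ m : ℤ, w (Additive.ofMul (⟨lZ ((N : ℤ) * m), lZ_mem_Gamma0 m⟩ : Gamma0 N)) = 0 := by
    intro m
    have h1 := DFunLike.congr_fun hw2'
      (Additive.ofMul (⟨lZ (((N * q : ℕ) : ℤ) * m), lZ_mem_Gamma0 m⟩ : Gamma0 (N * q)))
    rw [resD_apply, degenDelta_lZ, AddMonoidHom.add_apply,
      res_isParabolicHom _ hEx ⟨lZ (((N * q : ℕ) : ℤ) * m), lZ_mem_Gamma0 m⟩ (trace_lZ _),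
      resD_isParabolicHom _ hEy ⟨lZ (((N * q : ℕ) : ℤ) * m), lZ_mem_Gamma0 m⟩ (trace_lZ _),
      add_zero] at h1
    exact h1
  -- first application of Ihara (i): `(E x, E y - w)`
  have k1 := ihara1_kills hqN p hcsp (eisK hℓN A x) (eisK hℓN A y - w)
    (by
      intro g
      have h1 := DFunLike.congr_fun hw2' (Additive.ofMul g)
      rw [resD_apply, AddMonoidHom.add_apply, res_apply, resD_apply] at h1
      rw [AddMonoidHom.sub_apply, h1]
      abel)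
    (fun m => hEx _ (trace_uZ m)) (fun m => hEx _ (trace_lZ _))
    (fun m => by rw [AddMonoidHom.sub_apply, hEy _ (trace_uZ m), hwu m, sub_zero])
    (fun m => by rw [AddMonoidHom.sub_apply, hEy _ (trace_lZ _), hwl m, sub_zero])
    g hg
  -- second application: `(w, E z)`
  have k2 := ihara1_kills hqN p hcsp w (eisK hℓN A z)
    (by
      intro g
      have h1 := DFunLike.congr_fun hw1' (Additive.ofMul g)
      rw [res_apply, AddMonoidHom.neg_apply, resD_apply] at h1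
      rw [h1]
      abel)
    hwu hwl (fun m => hEz _ (trace_uZ m)) (fun m => hEz _ (trace_lZ _)) g hg
  refine ⟨k1.1, ?_, k2.2⟩
  have h3 := k1.2
  rw [AddMonoidHom.sub_apply, k2.1, sub_zero] at h3
  exact h3

end Fermat.Agent.GE9.Ihara2
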