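/-
GATE-E / E9-IHARA2 (helper46), file 7: **Ihara's lemma for level `N → N q²`** (Wiles, Lemma 2.5),
consumer forms.

* `ihara2_hom`     : `E_ℓ' (E_ℓ x̄) = E_ℓ' (E_ℓ ȳ) = E_ℓ' (E_ℓ z̄) = 0` in `Hom(Γ₀(N), ℤ/p)`;
* `ihara2_mod_p`   : the integral pointwise divisibility form;
* `alpha3P`        : `α₃ : Λ_N³ → Λ_{N q²}`, `(x, y, z) ↦ x + y ∘ δ + z ∘ δ²`;
* `alpha3P_latT`   : `α₃` commutes with `T_l`, `l ∤ N q`;
* `ihara2_latT_of_csp`, `ihara2_latT` : the lattice form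
    `α₃ (x, y, z) ∈ p Λ_{N q²}  ⟹  E_ℓ' E_ℓ x, E_ℓ' E_ℓ y, E_ℓ' E_ℓ z ∈ p Λ_N`,
  for every odd prime `p` (no condition relating `p` and `q`), `ℓ ≡ 1 (mod q)`, `ℓ ∤ N`, `ℓ' ∤ N`.
-/
import Mathlib
import Fermat.Agent.GE9.Ihara2.Main
import Fermat.Agent.GE9.Ihara2.EquivGen
import Fermat.Agent.GM.End.Plug
import Fermat.Agent.GM.B5.EquivLat
import Fermat.Agent.GM.CSP.Main

set_option autoImplicit false

open scoped MatrixGroups
open CongruenceSubgroup Matrix Matrix.SpecialLinearGroup ModularCurve.Period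
open Fermat.Agent.S16_helper49
open Fermat.Agent.GM.Amalgam
open Fermat.Agent.GM.B
open Fermat.Agent.GM.B5
open Fermat.Agent.GM.EisClass
open Fermat.Agent.GM.Ihara
open Fermat.Agent.GJ.J2.Lat

namespace Fermat.Agent.GE9.Ihara2

section Hom

variable {N q ℓ ℓ' : ℕ} [hq : Fact q.Prime] [hℓ : Fact ℓ.Prime] [hℓ' : Fact ℓ'.Prime]

omit hq hℓ' in
/-- a homomorphism killing `{d ≡ 1 (mod N)}` is killed by `E_ℓ = T_ℓ - (ℓ + 1)`. -/
theorem eisK_eq_zero_of_kills (hℓN : ¬ ℓ ∣ N) {A : Type*} [AddCommGroup A]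
    (φ : Additive (Gamma0 N) →+ A)
    (hφ : ∀ g : Gamma0 N, ((((g : SL(2, ℤ)) 1 1 : ℤ)) : ZMod N) = 1 → φ (Additive.ofMul g) = 0) :
    eisK hℓN A φ = 0 := by
  unfold eisK
  rw [cohT_eq_smul_of_kills_Gamma1 hℓN φ hφ, sub_self]

/-- **Ihara's lemma for `N → N q²`, hom form**: `E_ℓ' E_ℓ` kills `x̄, ȳ, z̄`. -/
theorem ihara2_hom (hqN : ¬ q ∣ N) (p : ℕ) (hcsp : CSPStmt N q (Multiplicative (ZMod p)))
    (hℓNq : ¬ ℓ ∣ N * q) (hℓq : (ℓ : ZMod q) = 1) (hℓ'N : ¬ ℓ' ∣ N)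
    (x y z : Additive (Gamma0 N) →+ ZMod p)
    (hx : IsParabolicHom (Gamma0 N) x) (hy : IsParabolicHom (Gamma0 N) y)
    (hz : IsParabolicHom (Gamma0 N) z)
    (hrel : ∀ g : Gamma0 (N * q * q),
      x (Additive.ofMul (degenOne N q (degenOne (N * q) q g)))
        + y (Additive.ofMul (degenDelta N q (degenOne (N * q) q g)))
        + z (Additive.ofMul (degenDelta N q (degenDelta (N * q) q g))) = 0) :
    eisK hℓ'N (ZMod p) (eisK (not_dvd_of_not_dvd_mul hℓNq) (ZMod p) x) = 0 ∧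
    eisK hℓ'N (ZMod p) (eisK (not_dvd_of_not_dvd_mul hℓNq) (ZMod p) y) = 0 ∧
    eisK hℓ'N (ZMod p) (eisK (not_dvd_of_not_dvd_mul hℓNq) (ZMod p) z) = 0 :=
  ⟨eisK_eq_zero_of_kills hℓ'N _ fun g hg =>
      (ihara2_kills hqN p hcsp hℓNq hℓq x y z hx hy hz hrel g hg).1,
    eisK_eq_zero_of_kills hℓ'N _ fun g hg =>
      (ihara2_kills hqN p hcsp hℓNq hℓq x y z hx hy hz hrel g hg).2.1,
    eisK_eq_zero_of_kills hℓ'N _ fun g hg =>
      (ihara2_kills hqN p hcsp hℓNq hℓq x y z hx hy hz hrel g hg).2.2⟩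

omit hq hℓ' in
/-- `E_ℓ` commutes with change of coefficients. -/
theorem eisK_comp {M : ℕ} (hℓM : ¬ ℓ ∣ M) {A B : Type*} [AddCommGroup A] [AddCommGroup B]
    (f : A →+ B) (φ : Additive (Gamma0 M) →+ A) :
    eisK hℓM B (f.comp φ) = f.comp (eisK hℓM A φ) := by
  unfold eisK
  rw [cohT_comp]
  refine AddMonoidHom.ext fun g => ?_
  rw [AddMonoidHom.sub_apply, AddMonoidHom.comp_apply, AddMonoidHom.comp_apply,
    AddMonoidHom.sub_apply, map_sub, AddMonoidHom.nsmul_apply, AddMonoidHom.nsmul_apply,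
    map_nsmul, AddMonoidHom.comp_apply]

omit hq hℓ in
theorem isParabolicHom_comp {M : ℕ} {A B : Type*} [AddCommGroup A] [AddCommGroup B]
    (f : A →+ B) (φ : Additive (Gamma0 M) →+ A) (hφ : IsParabolicHom (Gamma0 M) φ) :
    IsParabolicHom (Gamma0 M) (f.comp φ) := by
  intro γ hγ
  rw [AddMonoidHom.comp_apply, hφ γ hγ, map_zero]

/-- **Ihara's lemma for `N → N q²`, integral pointwise form.** -/
theorem ihara2_mod_p (hqN : ¬ q ∣ N) (p : ℕ) (hcsp : CSPStmt N q (Multiplicative (ZMod p)))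
    (hℓNq : ¬ ℓ ∣ N * q) (hℓq : (ℓ : ZMod q) = 1) (hℓ'N : ¬ ℓ' ∣ N)
    (x y z : Additive (Gamma0 N) →+ ℤ)
    (hx : x ∈ parabolicHoms ℤ (Gamma0 N) ℤ) (hy : y ∈ parabolicHoms ℤ (Gamma0 N) ℤ)
    (hz : z ∈ parabolicHoms ℤ (Gamma0 N) ℤ)
    (hrel : ∀ g : Gamma0 (N * q * q), (p : ℤ) ∣
      x (Additive.ofMul (degenOne N q (degenOne (N * q) q g)))
        + y (Additive.ofMul (degenDelta N q (degenOne (N * q) q g)))
        + z (Additive.ofMul (degenDelta N q (degenDelta (N * q) q g)))) :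
    (∀ g, (p : ℤ) ∣ eisK hℓ'N ℤ (eisK (not_dvd_of_not_dvd_mul hℓNq) ℤ x) g) ∧
    (∀ g, (p : ℤ) ∣ eisK hℓ'N ℤ (eisK (not_dvd_of_not_dvd_mul hℓNq) ℤ y) g) ∧
    (∀ g, (p : ℤ) ∣ eisK hℓ'N ℤ (eisK (not_dvd_of_not_dvd_mul hℓNq) ℤ z) g) := by
  set f : ℤ →+ ZMod p := Int.castAddHom (ZMod p) with hf
  have hℓN : ¬ ℓ ∣ N := not_dvd_of_not_dvd_mul hℓNq
  have hrel' : ∀ g : Gamma0 (N * q * q),
      (f.comp x) (Additive.ofMul (degenOne N q (degenOne (N * q) q g)))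
        + (f.comp y) (Additive.ofMul (degenDelta N q (degenOne (N * q) q g)))
        + (f.comp z) (Additive.ofMul (degenDelta N q (degenDelta (N * q) q g))) = 0 := by
    intro g
    rw [AddMonoidHom.comp_apply, AddMonoidHom.comp_apply, AddMonoidHom.comp_apply, ← map_add,
      ← map_add]
    exact (ZMod.intCast_zmod_eq_zero_iff_dvd _ p).mpr (hrel g)
  obtain ⟨h1, h2, h3⟩ := ihara2_hom hqN p hcsp hℓNq hℓq hℓ'N (f.comp x) (f.comp y) (f.comp z)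
    (isParabolicHom_comp f x hx) (isParabolicHom_comp f y hy) (isParabolicHom_comp f z hz) hrel'
  have key : ∀ w : Additive (Gamma0 N) →+ ℤ,
      eisK hℓ'N (ZMod p) (eisK hℓN (ZMod p) (f.comp w)) = 0 →
      ∀ g, (p : ℤ) ∣ eisK hℓ'N ℤ (eisK hℓN ℤ w) g := by
    intro w hw g
    rw [eisK_comp, eisK_comp] at hw
    have h := DFunLike.congr_fun hw g
    rw [AddMonoidHom.comp_apply, AddMonoidHom.zero_apply] at h
    exact (ZMod.intCast_zmod_eq_zero_iff_dvd _ p).mp h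
  exact ⟨key x h1, key y h2, key z h3⟩

end Hom

/-! ### the lattice form -/

section Lattice

variable {N q : ℕ} [hqF : Fact q.Prime] [NeZero N] [NeZero (N * q)] [NeZero (N * q * q)]

/-- **`α₃ : Λ_N³ → Λ_{N q²}`**, `(x, y, z) ↦ x ∘ 1 + y ∘ δ + z ∘ δ²`. -/
noncomputable def alpha3P (N q : ℕ) [Fact q.Prime] [NeZero N] [NeZero (N * q)]
    [NeZero (N * q * q)] : Lam N × Lam N × Lam N →+ Lam (N * q * q) where
  toFun u := resP ℤ (N * q) q (alphaP ℤ N q (u.1, u.2.1)) + resDP ℤ (N * q) q (resDP ℤ N q u.2.2)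
  map_zero' := by
    show resP ℤ (N * q) q (alphaP ℤ N q ((0 : Lam N), (0 : Lam N)))
      + resDP ℤ (N * q) q (resDP ℤ N q (0 : Lam N)) = 0
    rw [show ((0 : Lam N), (0 : Lam N)) = 0 from rfl, map_zero, map_zero, map_zero, map_zero,
      add_zero]
  map_add' u v := by
    show resP ℤ (N * q) q (alphaP ℤ N q (u.1 + v.1, u.2.1 + v.2.1))
        + resDP ℤ (N * q) q (resDP ℤ N q (u.2.2 + v.2.2))
      = (resP ℤ (N * q) q (alphaP ℤ N q (u.1, u.2.1)) + resDP ℤ (N * q) q (resDP ℤ N q u.2.2))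
        + (resP ℤ (N * q) q (alphaP ℤ N q (v.1, v.2.1)) + resDP ℤ (N * q) q (resDP ℤ N q v.2.2))
    rw [show (u.1 + v.1, u.2.1 + v.2.1) = (u.1, u.2.1) + (v.1, v.2.1) from rfl, map_add, map_add,
      map_add, map_add]
    abel

theorem alpha3P_apply (x y z : Lam N) :
    alpha3P N q (x, y, z) =
      resP ℤ (N * q) q (alphaP ℤ N q (x, y)) + resDP ℤ (N * q) q (resDP ℤ N q z) := rfl

theorem alpha3P_coe_apply (x y z : Lam N) (g : Gamma0 (N * q * q)) :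
    ((alpha3P N q (x, y, z) : Lam (N * q * q)) : Additive (Gamma0 (N * q * q)) →+ ℤ)
        (Additive.ofMul g) =
      (x : Additive (Gamma0 N) →+ ℤ) (Additive.ofMul (degenOne N q (degenOne (N * q) q g)))
        + (y : Additive (Gamma0 N) →+ ℤ)
            (Additive.ofMul (degenDelta N q (degenOne (N * q) q g)))
        + (z : Additive (Gamma0 N) →+ ℤ)
            (Additive.ofMul (degenDelta N q (degenDelta (N * q) q g))) := by
  rw [alpha3P_apply, alphaP_apply, Submodule.coe_add, AddMonoidHom.add_apply, resP_coe, resDP_coe,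
    res_apply, resD_apply, Submodule.coe_add, AddMonoidHom.add_apply, resP_coe, resDP_coe,
    res_apply, resD_apply, resDP_coe, resD_apply]

/-- **`α₃` is `T_l`-equivariant**, `l ∤ N q`. -/
theorem alpha3P_latT (hqN : ¬ q ∣ N) (l : Nat.Primes) (hl : ¬ (l : ℕ) ∣ N * q)
    (x y z : Lam N) :
    alpha3P N q (latT N l x, latT N l y, latT N l z) =
      latT (N * q * q) l (alpha3P N q (x, y, z)) := by
  have hl2 : ¬ (l : ℕ) ∣ N * q * q := by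
    intro h
    rcases (Nat.Prime.dvd_mul l.2).1 h with h | h
    · exact hl h
    · exact hl (dvd_mul_of_dvd_right h N)
  rw [alpha3P_apply, alpha3P_apply, alphaP_latT hqN l hl, resDP_latT_gen l hl,
    resP_latT_gen l hl2, resDP_latT_gen l hl2, map_add]

/-- **Ihara's lemma for `N → N q²`, lattice form**, from `CSPStmt`: if `α₃ (x, y, z) ∈ p Λ_{N q²}`
then `E_ℓ' E_ℓ x, E_ℓ' E_ℓ y, E_ℓ' E_ℓ z ∈ p Λ_N`, `E_l = T_l - (l + 1)`. -/
theorem ihara2_latT_of_csp (hqN : ¬ q ∣ N) {p : ℕ} (hp0 : p ≠ 0)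
    (hcsp : CSPStmt N q (Multiplicative (ZMod p)))
    (l l' : Nat.Primes) (hl : ¬ (l : ℕ) ∣ N * q) (hlq : ((l : ℕ) : ZMod q) = 1)
    (hl' : ¬ (l' : ℕ) ∣ N) (x y z : Lam N)
    (hxyz : ∃ w : Lam (N * q * q), alpha3P N q (x, y, z) = (p : ℤ) • w) :
    ∃ z1 z2 z3 : Lam N,
      (latT N l' - (((l' : ℕ) : ℤ) + 1) • (1 : Module.End ℤ (Lam N)))
          ((latT N l - (((l : ℕ) : ℤ) + 1) • (1 : Module.End ℤ (Lam N))) x) = (p : ℤ) • z1 ∧
      (latT N l' - (((l' : ℕ) : ℤ) + 1) • (1 : Module.End ℤ (Lam N)))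
          ((latT N l - (((l : ℕ) : ℤ) + 1) • (1 : Module.End ℤ (Lam N))) y) = (p : ℤ) • z2 ∧
      (latT N l' - (((l' : ℕ) : ℤ) + 1) • (1 : Module.End ℤ (Lam N)))
          ((latT N l - (((l : ℕ) : ℤ) + 1) • (1 : Module.End ℤ (Lam N))) z) = (p : ℤ) • z3 := by
  have : Fact (l : ℕ).Prime := ⟨l.2⟩
  have : Fact (l' : ℕ).Prime := ⟨l'.2⟩
  have hlN : ¬ (l : ℕ) ∣ N := not_dvd_of_not_dvd_mul hl
  obtain ⟨w, hw⟩ := hxyz
  have hdiv : ∀ g : Gamma0 (N * q * q), (p : ℤ) ∣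
      (x : Additive (Gamma0 N) →+ ℤ) (Additive.ofMul (degenOne N q (degenOne (N * q) q g)))
        + (y : Additive (Gamma0 N) →+ ℤ)
            (Additive.ofMul (degenDelta N q (degenOne (N * q) q g)))
        + (z : Additive (Gamma0 N) →+ ℤ)
            (Additive.ofMul (degenDelta N q (degenDelta (N * q) q g))) := by
    intro g
    rw [← alpha3P_coe_apply, hw, Submodule.coe_smul, AddMonoidHom.smul_apply]
    exact ⟨_, rfl⟩
  obtain ⟨h1, h2, h3⟩ := ihara2_mod_p hqN p hcsp (ℓ := (l : ℕ)) (ℓ' := (l' : ℕ)) hl hlq hl'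
    (x : Additive (Gamma0 N) →+ ℤ) (y : Additive (Gamma0 N) →+ ℤ) (z : Additive (Gamma0 N) →+ ℤ)
    x.2 y.2 z.2 hdiv
  -- the coercion of `E_l u`
  have hcoe : ∀ (k : Nat.Primes) [Fact (k : ℕ).Prime] (hk : ¬ (k : ℕ) ∣ N) (u : Lam N),
      (((latT N k - (((k : ℕ) : ℤ) + 1) • (1 : Module.End ℤ (Lam N))) u : Lam N) :
        Additive (Gamma0 N) →+ ℤ) = eisK hk ℤ (u : Additive (Gamma0 N) →+ ℤ) := by
    intro k _ hk u
    rw [LinearMap.sub_apply, LinearMap.smul_apply, Module.End.one_apply, Submodule.coe_sub,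
      Submodule.coe_smul, Fermat.Agent.GM.End.coe_latT_of_not_dvd k hk u]
    unfold eisK
    rw [← natCast_zsmul]
    push_cast
    rfl
  have key : ∀ u : Lam N,
      (∀ g, (p : ℤ) ∣ eisK hl' ℤ (eisK hlN ℤ (u : Additive (Gamma0 N) →+ ℤ)) g) →
      ∃ v : Lam N, (latT N l' - (((l' : ℕ) : ℤ) + 1) • (1 : Module.End ℤ (Lam N)))
          ((latT N l - (((l : ℕ) : ℤ) + 1) • (1 : Module.End ℤ (Lam N))) u) = (p : ℤ) • v := by
    intro u hu
    have hc2 := hcoe l' hl' ((latT N l - (((l : ℕ) : ℤ) + 1) • (1 : Module.End ℤ (Lam N))) u)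
    rw [hcoe l hlN u] at hc2
    obtain ⟨v, hv, hveq⟩ := exists_parabolic_eq_smul hp0 _
      (hc2 ▸ ((latT N l' - (((l' : ℕ) : ℤ) + 1) • (1 : Module.End ℤ (Lam N)))
          ((latT N l - (((l : ℕ) : ℤ) + 1) • (1 : Module.End ℤ (Lam N))) u) : Lam N).2) hu
    refine ⟨⟨v, hv⟩, Subtype.ext ?_⟩
    rw [hc2, hveq]
    rfl
  obtain ⟨z1, hz1⟩ := key x h1
  obtain ⟨z2, hz2⟩ := key y h2
  obtain ⟨z3, hz3⟩ := key z h3
  exact ⟨z1, z2, z3, hz1, hz2, hz3⟩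

/-- **Ihara's lemma for `N → N q²`, lattice form**, for every odd prime `p`. -/
theorem ihara2_latT (hqN : ¬ q ∣ N) {p : ℕ} (hp : p.Prime) (hp2 : p ≠ 2)
    (l l' : Nat.Primes) (hl : ¬ (l : ℕ) ∣ N * q) (hlq : ((l : ℕ) : ZMod q) = 1)
    (hl' : ¬ (l' : ℕ) ∣ N) (x y z : Lam N)
    (hxyz : ∃ w : Lam (N * q * q), alpha3P N q (x, y, z) = (p : ℤ) • w) :
    ∃ z1 z2 z3 : Lam N,
      (latT N l' - (((l' : ℕ) : ℤ) + 1) • (1 : Module.End ℤ (Lam N)))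
          ((latT N l - (((l : ℕ) : ℤ) + 1) • (1 : Module.End ℤ (Lam N))) x) = (p : ℤ) • z1 ∧
      (latT N l' - (((l' : ℕ) : ℤ) + 1) • (1 : Module.End ℤ (Lam N)))
          ((latT N l - (((l : ℕ) : ℤ) + 1) • (1 : Module.End ℤ (Lam N))) y) = (p : ℤ) • z2 ∧
      (latT N l' - (((l' : ℕ) : ℤ) + 1) • (1 : Module.End ℤ (Lam N)))
          ((latT N l - (((l : ℕ) : ℤ) + 1) • (1 : Module.End ℤ (Lam N))) z) = (p : ℤ) • z3 :=
  ihara2_latT_of_csp hqN hp.ne_zero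
    (Fermat.Agent.GM.CSP.Main.cspStmt hp hp2 (Nat.pos_of_ne_zero (NeZero.ne N)) hqN)
    l l' hl hlq hl' x y z hxyz

end Lattice

end Fermat.Agent.GE9.Ihara2
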