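/-
GATE-E / E9-IHARA2 (helper46), file 1: the ABSTRACT gluing lemma with the Hecke trick.

`Γ` a group, `ι₁ ι₂ : E →* Γ` two injective homomorphisms whose ranges generate `Γ`, `K ⊴ Γ` a normal
subgroup contained in both ranges, `f₁ f₂ : E → A` homomorphisms into an abelian group which agree
on `range ι₁ ∩ range ι₂` (`ι₁ e₁ = ι₂ e₂ → f₁ e₁ = f₂ e₂`).  In general `(f₁, f₂)` does NOT glue to a
homomorphism on `Γ` (the obstruction is a class in `H²(Γ/K, A)`).  But for every "Hecke cocycle"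
`(σ, c)` on `Γ` (`σ (g h) = σ h ∘ σ g`, `c (g h) i = c g i * c h (σ g i)`) which is trivial modulo
`K` (`g⁻¹ * c g i ∈ K`) the function

  `w g = ∑ i, f (g⁻¹ * c g i)`      (`f` = the common value of `f₁, f₂` on `K`)

IS a homomorphism `Γ → A`, and `w (ι_j e) = ∑ i, f_j (ι_j⁻¹ ((ι_j e)⁻¹ * c (ι_j e) i))`
(`= (T f_j - (deg T) f_j) e` when `(σ, c)` comes from a Hecke coset system).  Mathlib only.
-/
import Mathlib

set_option autoImplicit false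

namespace Fermat.Agent.GE9.Ihara2

open Function

section Glue

variable {Γ E : Type*} [Group Γ] [Group E]
variable (ι₁ ι₂ : E →* Γ)
variable (K : Subgroup Γ)
variable {I : Type*} [Fintype I] (σ : Γ → Equiv.Perm I) (c : Γ → I → Γ)
variable {A : Type*} [AddCommGroup A] (f₁ f₂ : Additive E →+ A)

/-- the germ: the value of `f₁` on the `ι₁`-preimage (`0` outside the range of `ι₁`). -/
noncomputable def germ (γ : Γ) : A := by
  classical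
  exact if h : γ ∈ ι₁.range then f₁ (Additive.ofMul h.choose) else 0

variable {ι₁ ι₂ K f₁ f₂}

theorem germ_apply (hι₁ : Injective ι₁) (e : E) : germ ι₁ f₁ (ι₁ e) = f₁ (Additive.ofMul e) := by
  classical
  have h : ι₁ e ∈ ι₁.range := ⟨e, rfl⟩
  unfold germ
  rw [dif_pos h]
  congr 2
  exact hι₁ h.choose_spec

theorem germ_apply₂ (hι₁ : Injective ι₁)
    (hf : ∀ e₁ e₂ : E, ι₁ e₁ = ι₂ e₂ → f₁ (Additive.ofMul e₁) = f₂ (Additive.ofMul e₂))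
    (e₂ : E) (h : ι₂ e₂ ∈ ι₁.range) : germ ι₁ f₁ (ι₂ e₂) = f₂ (Additive.ofMul e₂) := by
  obtain ⟨e₁, he₁⟩ := h
  rw [← he₁, germ_apply hι₁]
  exact hf e₁ e₂ he₁

theorem germ_mul (hι₁ : Injective ι₁) (hK₁ : K ≤ ι₁.range) {k k' : Γ} (hk : k ∈ K)
    (hk' : k' ∈ K) : germ ι₁ f₁ (k * k') = germ ι₁ f₁ k + germ ι₁ f₁ k' := by
  obtain ⟨e, rfl⟩ := hK₁ hk
  obtain ⟨e', rfl⟩ := hK₁ hk'
  rw [← map_mul, germ_apply hι₁, germ_apply hι₁, germ_apply hι₁, ofMul_mul, map_add]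

/-- **invariance of the germ** under conjugation by the whole group. -/
theorem germ_conj [hKn : K.Normal] (hι₁ : Injective ι₁) (hK₁ : K ≤ ι₁.range)
    (hK₂ : K ≤ ι₂.range) (hgen : ι₁.range ⊔ ι₂.range = ⊤)
    (hf : ∀ e₁ e₂ : E, ι₁ e₁ = ι₂ e₂ → f₁ (Additive.ofMul e₁) = f₂ (Additive.ofMul e₂))
    (γ : Γ) {k : Γ} (hk : k ∈ K) : germ ι₁ f₁ (γ * k * γ⁻¹) = germ ι₁ f₁ k := by
  let Inv : Subgroup Γ :=
    { carrier := {γ | ∀ k ∈ K, germ ι₁ f₁ (γ * k * γ⁻¹) = germ ι₁ f₁ k}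
      one_mem' := by
        intro k _
        rw [one_mul, inv_one, mul_one]
      mul_mem' := by
        intro γ η hγ hη k hk
        have h1 : γ * η * k * (γ * η)⁻¹ = γ * (η * k * η⁻¹) * γ⁻¹ := by group
        rw [h1, hγ _ (hKn.conj_mem k hk η), hη k hk]
      inv_mem' := by
        intro γ hγ k hk
        have hk' : γ⁻¹ * k * γ⁻¹⁻¹ ∈ K := hKn.conj_mem k hk γ⁻¹
        have h1 := hγ _ hk'
        have h2 : γ * (γ⁻¹ * k * γ⁻¹⁻¹) * γ⁻¹ = k := by group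
        rw [h2] at h1
        exact h1.symm }
  have h1 : ι₁.range ≤ Inv := by
    rintro _ ⟨e₀, rfl⟩ k hk
    obtain ⟨e, rfl⟩ := hK₁ hk
    rw [← map_inv, ← map_mul, ← map_mul, germ_apply hι₁, germ_apply hι₁, ofMul_mul, ofMul_mul,
      ofMul_inv, map_add, map_add, map_neg]
    abel
  have h2 : ι₂.range ≤ Inv := by
    rintro _ ⟨e₀, rfl⟩ k hk
    obtain ⟨e', rfl⟩ := hK₂ hk
    have hk' : ι₂ e₀ * ι₂ e' * (ι₂ e₀)⁻¹ ∈ K := hKn.conj_mem _ hk _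
    have e1 : ι₂ e₀ * ι₂ e' * (ι₂ e₀)⁻¹ = ι₂ (e₀ * e' * e₀⁻¹) := by
      rw [map_mul, map_mul, map_inv]
    rw [e1] at hk' ⊢
    rw [germ_apply₂ hι₁ hf _ (hK₁ hk'), germ_apply₂ hι₁ hf _ (hK₁ hk), ofMul_mul, ofMul_mul,
      ofMul_inv, map_add, map_add, map_neg]
    abel
  have h3 : (⊤ : Subgroup Γ) ≤ Inv := hgen ▸ sup_le h1 h2
  exact h3 (Subgroup.mem_top γ) k hk

variable (ι₁) (f₁)

/-- the glued function `g ↦ ∑ i, germ (g⁻¹ * c g i)`. -/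
noncomputable def glueFun (γ : Γ) : A := ∑ i : I, germ ι₁ f₁ (γ⁻¹ * c γ i)

variable {ι₁} {f₁} {c} {σ}

theorem glueFun_mul [hKn : K.Normal] (hι₁ : Injective ι₁) (hK₁ : K ≤ ι₁.range)
    (hK₂ : K ≤ ι₂.range) (hgen : ι₁.range ⊔ ι₂.range = ⊤)
    (hf : ∀ e₁ e₂ : E, ι₁ e₁ = ι₂ e₂ → f₁ (Additive.ofMul e₁) = f₂ (Additive.ofMul e₂))
    (hc : ∀ g h i, c (g * h) i = c g i * c h (σ g i))
    (hcK : ∀ g i, g⁻¹ * c g i ∈ K) (γ η : Γ) :
    glueFun ι₁ c f₁ (γ * η) = glueFun ι₁ c f₁ γ + glueFun ι₁ c f₁ η := by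
  unfold glueFun
  have hterm : ∀ i : I, germ ι₁ f₁ ((γ * η)⁻¹ * c (γ * η) i)
      = germ ι₁ f₁ (γ⁻¹ * c γ i) + germ ι₁ f₁ (η⁻¹ * c η (σ γ i)) := by
    intro i
    have e1 : (γ * η)⁻¹ * c (γ * η) i
        = (η⁻¹ * (γ⁻¹ * c γ i) * η⁻¹⁻¹) * (η⁻¹ * c η (σ γ i)) := by
      rw [hc]
      group
    rw [e1, germ_mul hι₁ hK₁ (hKn.conj_mem _ (hcK γ i) η⁻¹) (hcK η (σ γ i)),
      germ_conj hι₁ hK₁ hK₂ hgen hf η⁻¹ (hcK γ i)]
  rw [Finset.sum_congr rfl (fun i _ => hterm i), Finset.sum_add_distrib]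
  congr 1
  exact Equiv.sum_comp (σ γ) (fun i => germ ι₁ f₁ (η⁻¹ * c η i))

/-- **The gluing lemma with the Hecke trick.** -/
theorem exists_glue_hecke [hKn : K.Normal] (hι₁ : Injective ι₁) (hK₁ : K ≤ ι₁.range)
    (hK₂ : K ≤ ι₂.range) (hgen : ι₁.range ⊔ ι₂.range = ⊤)
    (hf : ∀ e₁ e₂ : E, ι₁ e₁ = ι₂ e₂ → f₁ (Additive.ofMul e₁) = f₂ (Additive.ofMul e₂))
    (hc : ∀ g h i, c (g * h) i = c g i * c h (σ g i))
    (hcK : ∀ g i, g⁻¹ * c g i ∈ K) :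
    ∃ w : Additive Γ →+ A,
      (∀ (e : E) (d : I → E), (∀ i, ι₁ (d i) = (ι₁ e)⁻¹ * c (ι₁ e) i) →
        w (Additive.ofMul (ι₁ e)) = ∑ i : I, f₁ (Additive.ofMul (d i))) ∧
      (∀ (e : E) (d : I → E), (∀ i, ι₂ (d i) = (ι₂ e)⁻¹ * c (ι₂ e) i) →
        w (Additive.ofMul (ι₂ e)) = ∑ i : I, f₂ (Additive.ofMul (d i))) := by
  refine ⟨AddMonoidHom.mk' (fun g => glueFun ι₁ c f₁ (Additive.toMul g)) ?_, ?_, ?_⟩
  · intro g h
    exact glueFun_mul (σ := σ) hι₁ hK₁ hK₂ hgen hf hc hcK (Additive.toMul g) (Additive.toMul h)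
  · intro e d hd
    show glueFun ι₁ c f₁ (ι₁ e) = _
    unfold glueFun
    refine Finset.sum_congr rfl fun i _ => ?_
    rw [← hd i, germ_apply hι₁]
  · intro e d hd
    show glueFun ι₁ c f₁ (ι₂ e) = _
    unfold glueFun
    refine Finset.sum_congr rfl fun i _ => ?_
    have hmem : ι₂ (d i) ∈ K := by
      rw [hd i]
      exact hcK _ i
    rw [← hd i, germ_apply₂ hι₁ hf _ (hK₁ hmem)]

end Glue

end Fermat.Agent.GE9.Ihara2
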