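/-
S59 PRE-WORK / GE9-IHARA2-NONEIS1 (helper2): **the non-Eisenstein prime `ℓ ≡ 1 (mod q)`** consumed by
`GE9/Ihara2` (Wiles' Lemma 2.5, level `q → q²`).

From the engine's OWN hypotheses on the residual representation (the frozen S56 shapes `habs`,
`hsplit`, `hTW`) and `2 ≠ 0` in `k`:

* `exists_rootFixer_noFixed` : there is `σ₀ ∈ G_ℚ` fixing the `m`-th roots of unity such that `ρ̄ σ₀`
  fixes no nonzero vector (Clifford step `GP/TW/CliffordCore` on `G_{ℚ(ζ_m)}` + the group lemma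
  `GM/NonEis/GroupLemma`);
* `exists_prime_one_mod_noFixed` : for every finite set `B` of primes there is a prime `ℓ ∉ B`,
  `ℓ ≠ q`, `q ∣ ℓ - 1`, such that for EVERY Frobenius lift `τ` at EVERY place over `ℓ`,
  `ρ̄ τ` fixes no nonzero vector, i.e. `(charpoly (ρ̄ τ)).eval 1 ≠ 0`
  (Chebotarev with the congruence built in, `GP/TW/CycPow.exists_tw_prime` at `(p, m) := (q, 1)`).

With `charpoly ρ_T(Frob_ℓ) = X² − T_ℓ X + ℓ` this says `1 − T_ℓ + ℓ ∉ 𝔪`: the operator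
`T_ℓ − (ℓ + 1)` is invertible on the `𝔪`-part.  No ramification theory is used.
-/
import Fermat.Agent.GP.TW.IdxAdapter
import Fermat.Agent.GP.TW.CycPow
import Fermat.Agent.GM.NonEis.GroupLemma

set_option autoImplicit false

open Polynomial Matrix
open Fermat.Agent.Common_helper32

namespace Fermat.Agent.GE9.Ihara2

open Fermat.Agent.GP.TW.SigmaLemma Fermat.Agent.GP.TW.CliffordCore Fermat.Agent.GP.TW.CycNormal
  Fermat.Agent.GP.TW.IdxAdapter

variable {k : Type} [Field k]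

/-- a stable line of the restriction of `ρ̄` to a subgroup gives a common eigenvector of the matrix
form. -/
theorem not_noEigen_of_stable (ρbar : ResidualGaloisRep k) (G : Subgroup GQ)
    (W : Submodule k ρbar.V) (hW0 : W ≠ ⊥) (hW1 : W ≠ ⊤)
    (hstab : ∀ σ ∈ G, ∀ x ∈ W, ρbar.ρ σ x ∈ W) :
    ¬ NoEigen ((matRep ρbar (stdBasis ρbar)).comp G.subtype) := by
  intro hno
  set b := stdBasis ρbar with hb
  obtain ⟨x, hxW, hx0⟩ := Submodule.exists_mem_ne_zero_of_ne_bot hW0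
  -- `W` is the line through `x`
  have hfin : Module.finrank k W = 1 := by
    have hlt : Module.finrank k W < Module.finrank k ρbar.V := Submodule.finrank_lt hW1
    have hpos : 0 < Module.finrank k W := by
      rw [Module.finrank_pos_iff_exists_ne_zero]
      exact ⟨⟨x, hxW⟩, fun h => hx0 (congrArg Subtype.val h)⟩
    rw [ρbar.finrank_eq] at hlt
    omega
  have hline : ∀ y ∈ W, ∃ c : k, y = c • x := by
    intro y hy
    obtain ⟨c, hc⟩ := (finrank_eq_one_iff_of_nonzero' (⟨x, hxW⟩ : W)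
      (fun h => hx0 (congrArg Subtype.val h))).mp hfin ⟨y, hy⟩
    exact ⟨c, (congrArg Subtype.val hc).symm⟩
  refine hno (b.equivFun x) ?_ ?_
  · intro h0
    exact hx0 ((LinearEquiv.map_eq_zero_iff _).mp h0)
  · intro σ
    obtain ⟨c, hc⟩ := hline _ (hstab σ.1 σ.2 x hxW)
    refine ⟨c, ?_⟩
    have h1 := LinearMap.toMatrix_mulVec_repr b b (ρbar.ρ σ.1) x
    show matRep ρbar b σ.1 *ᵥ b.equivFun x = c • b.equivFun x
    rw [← toMatrix_eq_matRep, Module.Basis.equivFun_apply, h1, hc, map_smul]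
    rfl

/-- **`σ₀ ∈ G_{ℚ(ζ_m)}` without fixed vector.** -/
theorem exists_rootFixer_noFixed (ρbar : ResidualGaloisRep k) (h2 : (2 : k) ≠ 0)
    (habs : ρbar.IsAbsolutelyIrreducible)
    (hsplit : ∀ σ : GQ, ∃ α β : k, LinearMap.charpoly (ρbar.ρ σ) = (X - C α) * (X - C β))
    (hTW : ∀ (K : Type) [Field K] [Algebra k K] (G : Subgroup GQ), G.index = 2 →
      ∀ V : Submodule K (ρbar.baseChange K).V,
        (∀ σ ∈ G, ∀ x ∈ V, (ρbar.baseChange K).ρ σ x ∈ V) → V = ⊥ ∨ V = ⊤)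
    (m : ℕ) [NeZero m] :
    ∃ σ₀ : GQ, (∀ ζ : Qb, ζ ^ m = 1 → σ₀ ζ = ζ) ∧ ∀ v : ρbar.V, ρbar.ρ σ₀ v = v → v = 0 := by
  by_contra hcon
  push Not at hcon
  set N : Subgroup GQ := rootFixer ℚ Qb m with hN
  have hno : NoEigen ((matRep ρbar (stdBasis ρbar)).comp N.subtype) :=
    noEigen_rootFixer ρbar (stdBasis ρbar) (matRep ρbar (stdBasis ρbar))
      (fun σ => toMatrix_eq_matRep ρbar (stdBasis ρbar) σ) habs hsplit hTW m
  have hall : ∀ g : N, ∃ v : ρbar.V, v ≠ 0 ∧ (ρbar.ρ.comp N.subtype) g v = v := by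
    intro g
    obtain ⟨v, hv, hv0⟩ := hcon g.1 g.2
    exact ⟨v, hv0, hv⟩
  obtain ⟨W, hW0, hW1, hstab⟩ :=
    Fermat.Agent.GM.NonEis.exists_stable_of_forall_fixed h2 ρbar.finrank_eq
      (ρbar.ρ.comp N.subtype) hall
  exact not_noEigen_of_stable ρbar N W hW0 hW1 (fun σ hσ x hx => hstab ⟨σ, hσ⟩ x hx) hno

/-- no fixed vector ⟺ `1` is not a root of the characteristic polynomial. -/
theorem charpoly_eval_one_ne_zero {V : Type*} [AddCommGroup V] [Module k V] [Module.Finite k V]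
    (f : Module.End k V) (h : ∀ v : V, f v = v → v = 0) : (LinearMap.charpoly f).eval 1 ≠ 0 := by
  intro h0
  have hroot : (LinearMap.charpoly f).IsRoot 1 := h0
  rw [← Module.End.hasEigenvalue_iff_isRoot_charpoly] at hroot
  obtain ⟨v, hv⟩ := hroot.exists_hasEigenvector
  apply hv.2
  apply h
  rw [hv.apply_eq_smul, one_smul]

/-- **the non-Eisenstein prime `ℓ ≡ 1 (mod q)`**, frozen Frobenius quantifiers. -/
theorem exists_prime_one_mod_noFixed (ρbar : ResidualGaloisRep k) (h2 : (2 : k) ≠ 0)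
    (habs : ρbar.IsAbsolutelyIrreducible)
    (hsplit : ∀ σ : GQ, ∃ α β : k, LinearMap.charpoly (ρbar.ρ σ) = (X - C α) * (X - C β))
    (hTW : ∀ (K : Type) [Field K] [Algebra k K] (G : Subgroup GQ), G.index = 2 →
      ∀ V : Submodule K (ρbar.baseChange K).V,
        (∀ σ ∈ G, ∀ x ∈ V, (ρbar.baseChange K).ρ σ x ∈ V) → V = ⊥ ∨ V = ⊤)
    (q : ℕ) [Fact q.Prime] (B : Finset ℕ) :
    ∃ ℓ : ℕ, ℓ.Prime ∧ ℓ ∉ B ∧ ℓ ≠ q ∧ q ∣ ℓ - 1 ∧
      ∀ (A : ValuationSubring Qb) (τ : GQ), A.LiesOverPrime ℓ → A.IsFrobeniusAt τ ℓ →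
        (∀ v : ρbar.V, ρbar.ρ τ v = v → v = 0) ∧ (LinearMap.charpoly (ρbar.ρ τ)).eval 1 ≠ 0 := by
  have : NeZero q := ⟨(Fact.out : q.Prime).ne_zero⟩
  obtain ⟨σ₀, hσ₀, hfix⟩ := exists_rootFixer_noFixed ρbar h2 habs hsplit hTW q
  obtain ⟨ℓ, hℓ, hℓB, hℓq, hdvd, hfrob⟩ :=
    Fermat.Agent.GP.TW.CycPow.exists_tw_prime ρbar.ρ ρbar.factorsThroughFiniteLevel q 1 σ₀
      (fun μ hμ => hσ₀ μ (by rwa [pow_one] at hμ)) B
  refine ⟨ℓ, hℓ, hℓB, hℓq, by rwa [pow_one] at hdvd, fun A τ hA hτ => ?_⟩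
  obtain ⟨g, hg⟩ := hfrob A τ hA hτ
  have hnf : ∀ v : ρbar.V, ρbar.ρ τ v = v → v = 0 := by
    intro v hv
    rw [hg, map_mul, map_mul, Module.End.mul_apply, Module.End.mul_apply] at hv
    -- `ρ g (ρ σ₀ (ρ g⁻¹ v)) = v`
    have h1 : ρbar.ρ σ₀ (ρbar.ρ g⁻¹ v) = ρbar.ρ g⁻¹ v := by
      have := congrArg (ρbar.ρ g⁻¹) hv
      rwa [← Module.End.mul_apply, ← map_mul, inv_mul_cancel, map_one, Module.End.one_apply] at this
    have h3 := hfix _ h1
    have := congrArg (ρbar.ρ g) h3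
    rwa [← Module.End.mul_apply, ← map_mul, mul_inv_cancel, map_one, Module.End.one_apply,
      map_zero] at this
  exact ⟨hnf, charpoly_eval_one_ne_zero _ hnf⟩

end Fermat.Agent.GE9.Ihara2
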